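import Fermat.Agent.ResidualThree.CubicDescent.LevelChain
import Fermat.Agent.ResidualThree.Tree.TransferLevel

/-!
# Statement: test characters with non-zero twisted trace

At the bad places the test function is a character of a congruence subgroup; on the forms of a deep
level the product of these functions composed with the inverse automorphism has non-zero trace.
-/

noncomputable section

open IsDedekindDomain NumberField
open Fermat.Agent.ResidualThree
open scoped WithZero

namespace Fermat.Agent.WeightOneLift

section Level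

variable {F : Type} [Field F] [NumberField F] {S : Finset (FPlace F)}

/-- The congruence level at `S`, maximal elsewhere. -/
def levelOn (S : Finset (FPlace F)) (d : FPlace F → ℕ) : Level F :=
  haveI := Classical.decEq (FPlace F)
  { J := fun w => if w ∈ S then congSubgroup w (d w) else maxSubgroup w
    le_max := fun w => by
      split_ifs
      exacts [congSubgroup_le_max w _, le_rfl]
    exists_cong := fun w => by
      split_ifs
      exacts [⟨_, le_rfl⟩, ⟨0, congSubgroup_le_max w 0⟩]
    eventually_max := by
      filter_upwards [S.finite_toSet.compl_mem_cofinite] with w hw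
      exact if_neg (show w ∉ S by simpa using hw) }

theorem levelOn_mem {d : FPlace F → ℕ} {w : FPlace F} (hw : w ∈ S) :
    (levelOn S d).J w = congSubgroup w (d w) := by
  classical exact if_pos hw

theorem levelOn_not {d : FPlace F → ℕ} {w : FPlace F} (hw : w ∉ S) :
    (levelOn S d).J w = maxSubgroup w := by
  classical exact if_neg hw

/-- Membership in the level prescribed at the places of `S`. -/
theorem mem_levelAt_levelOn {d : FPlace F → ℕ} {z : placeSubgroup S} :
    z ∈ levelAt (levelOn S d) S ↔
      ∀ w ∈ S, ((z : Gf F) : ∀ v, GLv v) w ∈ congSubgroup w (d w) := by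
  rw [mem_levelAt]
  exact forall₂_congr fun w hw => by rw [levelOn_mem hw]

end Level

variable {K L : Type} [Field K] [NumberField K] [Field L] [NumberField L] [Algebra K L]
  [IsTotallyComplex L] (τ : Orbital.CubicAut K L)

/-- The local data of test characters at the places of `S`. -/
structure CharData (S : Finset (FPlace L)) where
  /-- the characters -/
  χ : ∀ w : FPlace L, GLv w → ℂ
  /-- the level where they are multiplicative -/
  n : FPlace L → ℕ
  /-- the level where they are trivial -/
  E : FPlace L → ℕ
  lt_n : ∀ w ∈ S, Tree.threeLev w < n w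
  le_E : ∀ w ∈ S, n w + Tree.threeLev w ≤ E w
  n_comap : ∀ w, n (Orbital.comapPlace τ.σ.toRingEquiv w) = n w
  E_comap : ∀ w, E (Orbital.comapPlace τ.σ.toRingEquiv w) = E w
  mul : ∀ w ∈ S, ∀ g ∈ congSubgroup w (n w), ∀ h ∈ congSubgroup w (n w),
    χ w (g * h) = χ w g * χ w h
  ker : ∀ w ∈ S, ∀ g ∈ congSubgroup w (E w), χ w g = 1
  equivariant : ∀ w ∈ S, ∀ g ∈ congSubgroup (Orbital.comapPlace τ.σ.toRingEquiv w) (n w),
    χ w (Orbital.localAutGL τ.σ.toRingEquiv w g) = χ (Orbital.comapPlace τ.σ.toRingEquiv w) g

variable {τ}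

/-- The local test functions. -/
def CharData.fam {S : Finset (FPlace L)} (D : CharData τ S) (w : FPlace L) (g : GLv w) : ℂ :=
  D.χ w g * Tree.congInd w (D.n w + Tree.threeLev w) g

variable (τ)

/-- Test characters exist for a non-zero form of invariant eigenvalues. -/
def TestCharactersExist : Prop :=
  ∀ (S : Finset (FPlace L)), (∀ w, Orbital.comapPlace τ.σ.toRingEquiv w ∈ S ↔ w ∈ S) →
    ∀ (a : FPlace L → ℂ), (∀ w, a (Orbital.comapPlace τ.σ.toRingEquiv w) = a w) →
    ∀ (θ : Gf L → Hyp L → ℂ), IsEigenForm (S : Set (FPlace L)) a θ → θ ≠ 0 →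
    ∃ D : CharData τ S, ∀ UL : Level L,
      (∀ w ∈ S, UL.J w = congSubgroup w (D.E w)) → (∀ w ∉ S, UL.J w = maxSubgroup w) →
      FiniteDimensional ℂ (levelForms S a UL) →
      ∀ (h : placeSubgroup S → ℂ) (hh : IsHeckeFn (levelAt UL S) h),
        (∀ z : placeSubgroup S, h z = ∏ w ∈ S, D.fam w (((z : Gf L) : ∀ v, GLv v) w)) →
        ∀ hX : ∀ φ ∈ levelForms S a UL, (heckeLin hh * sigmaInvFn τ) φ ∈ levelForms S a UL,
          LinearMap.trace ℂ _ ((heckeLin hh * sigmaInvFn τ).restrict hX) ≠ 0

end Fermat.Agent.WeightOneLift
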