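import Fermat.Agent.WeightOneLift.TestCharacters.Params

/-!
# Existence of parameters

A large power of the inverse of a rational integer divisible by all places of `S` gives the scaling.
-/

noncomputable section

open IsDedekindDomain NumberField
open scoped WithZero

namespace Fermat.Agent.WeightOneLift

open Fermat.Agent.ResidualThree
open Fermat.Agent.ResidualThree.Orbital (comapPlace)

variable {F : Type} [Field F] [NumberField F]

/-- A rational integer lies in all places of a finite set. -/
theorem exists_nat_valuation_lt_one (S : Finset (FPlace F)) :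
    ∃ N₀ : ℕ, N₀ ≠ 0 ∧ ∀ w ∈ S, w.valuation F (N₀ : F) < 1 := by
  classical
  refine ⟨∏ w ∈ S, Ideal.absNorm w.asIdeal, Finset.prod_ne_zero_iff.mpr fun w _ =>
    fun h => w.ne_bot (Ideal.absNorm_eq_zero_iff.mp h), fun w hw => ?_⟩
  rw [show ((∏ x ∈ S, Ideal.absNorm x.asIdeal : ℕ) : F) =
    algebraMap (𝓞 F) F ((∏ x ∈ S, Ideal.absNorm x.asIdeal : ℕ) : 𝓞 F) from (map_natCast _ _).symm,
    HeightOneSpectrum.valuation_of_algebraMap, HeightOneSpectrum.intValuation_lt_one_iff_mem]
  obtain ⟨t, ht⟩ := Finset.dvd_prod_of_mem (fun x : FPlace F => Ideal.absNorm x.asIdeal) hw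
  rw [ht, Nat.cast_mul]
  exact w.asIdeal.mul_mem_right _ (Ideal.absNorm_mem _)

/-- Parameters beyond prescribed bounds exist. -/
theorem exists_charParams (f : F ≃+* F) (S : Finset (FPlace F))
    (hS : ∀ w, comapPlace f w ∈ S ↔ w ∈ S) (c R : FPlace F → ℕ)
    (hc : ∀ w, c (comapPlace f w) = c w) :
    ∃ P : CharParams f S, ∀ w ∈ S, c w < P.n w ∧ P.m w = P.n w + c w ∧ R w ≤ P.k w ∧
      R w ≤ P.m w ∧ R w ≤ P.s w ∧ P.s w + R w ≤ P.E w := by
  obtain ⟨N₀, hN, hlt⟩ := exists_nat_valuation_lt_one S
  set J := S.sup (fun w => 2 * ((ResidualThree.cond w).toNat + c w + R w + 2)) + 1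
  have hJ : ∀ w ∈ S, 2 * ((ResidualThree.cond w).toNat + c w + R w + 2) ≤ J := fun w hw =>
    (Finset.le_sup (f := fun w => 2 * ((ResidualThree.cond w).toNat + c w + R w + 2))
      hw).trans (Nat.le_succ _)
  let a : FPlace F → ℕ := fun w => (-WithZero.log (w.valuation F (N₀ : F))).toNat
  let s : FPlace F → ℕ := fun w => J * a w
  let n : FPlace F → ℕ := fun w => (s w + 1) / 2
  let m : FPlace F → ℕ := fun w => n w + c w
  let k : FPlace F → ℕ := fun w => ((s w : ℤ) - ResidualThree.cond w - m w).toNat
  have hN' : (N₀ : F) ≠ 0 := Nat.cast_ne_zero.mpr hN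
  have hne : ∀ w : FPlace F, w.valuation F (N₀ : F) ≠ 0 := fun w => (map_ne_zero _).mpr hN'
  have ha : ∀ w ∈ S, 1 ≤ a w ∧ w.valuation F (N₀ : F) = WithZero.exp (-(a w : ℤ)) := fun w hw => by
    have h1 := hlt w hw
    rw [← WithZero.exp_log (hne w), ← WithZero.exp_zero, WithZero.exp_lt_exp] at h1
    refine ⟨by simp only [a]; omega, ?_⟩
    simp only [a]
    rw [Int.toNat_of_nonneg (by omega), neg_neg, WithZero.exp_log (hne w)]
  have hs : ∀ w ∈ S, J ≤ s w := fun w hw => Nat.le_mul_of_pos_right J (ha w hw).1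
  have key : ∀ w ∈ S, 1 + R w ≤ k w ∧ (k w : ℤ) = (s w : ℤ) - ResidualThree.cond w - m w ∧
      c w < n w ∧ k w ≤ m w ∧ k w ≤ s w := fun w hw => by
    have := hs w hw
    have := hJ w hw
    have := ResidualThree.cond_nonneg w
    simp only [k, m, n]
    omega
  have hcond : ∀ w, ResidualThree.cond (comapPlace f w) = ResidualThree.cond w := cond_comapPlace f
  have hsc : ∀ w, s (comapPlace f w) = s w := fun w => by
    simp only [s, a, Orbital.valuation_comapPlace, map_natCast]
  have hmc : ∀ w, m (comapPlace f w) = m w := fun w => by simp only [m, n, hsc w, hc w]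
  refine ⟨{
    ν := ((N₀ : F) ^ J)⁻¹
    s := s
    n := n
    m := m
    E := fun w => 2 * s w + m w
    k := k
    ν_ne := inv_ne_zero (pow_ne_zero _ hN')
    fix := by rw [map_inv₀, map_pow, map_natCast]
    stable := hS
    n_comap := fun w => by simp only [n, hsc w]
    m_comap := hmc
    E_comap := fun w => by simp only [hsc w, hmc w]
    k_comap := fun w => by simp only [k, hsc w, hmc w, hcond w]
    val := fun w hw => ?_
    one_le := fun w hw => by have := key w hw; omega
    n_le := fun w _ => Nat.le_add_right _ _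
    s_le := fun w _ => by simp only [n]; omega
    k_eq := fun w hw => (key w hw).2.1
    one_le_k := fun w hw => by have := key w hw; omega
    s_le_E := fun w _ => by omega
    m_le_E := fun w _ => by omega }, fun w hw => ?_⟩
  · rw [map_inv₀, map_pow, (ha w hw).2, ← WithZero.exp_nsmul, ← WithZero.exp_neg, nsmul_eq_mul]
    congr 1
    simp only [s]
    push_cast
    ring
  · have := key w hw
    simp only
    exact ⟨this.2.2.1, rfl, by omega, by omega, by omega, by omega⟩

end Fermat.Agent.WeightOneLift
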