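import Mathlib.Data.Complex.Basic
import Mathlib.LinearAlgebra.Dimension.Free
import Mathlib.LinearAlgebra.FiniteDimensional.Basic
import Mathlib.LinearAlgebra.Trace

/-!
# The trace of a permutation operator

A space of functions which contains a nowhere vanishing one and is stable under separating
multipliers is the space of all functions, and an operator acting on it through a permutation with
a fixed point has non-zero trace.
-/

noncomputable section

namespace Fermat.Agent.WeightOneLift

variable {W : Type*} [AddCommGroup W] [Module ℂ W] {P : Type*} (ev : W →ₗ[ℂ] P → ℂ)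

open Classical in
/-- Some element of `W` is non-zero at `a` and zero on a finite set not containing `a`. -/
theorem exists_delta_on (g : W) (hg : ∀ a, ev g a ≠ 0)
    (hsep : ∀ a b : P, a ≠ b → ∃ (T : W → W) (μ : P → ℂ),
      (∀ x q, ev (T x) q = μ q * ev x q) ∧ μ a ≠ μ b) (a : P) (s : Finset P) (ha : a ∉ s) :
    ∃ x : W, ev x a ≠ 0 ∧ ∀ b ∈ s, ev x b = 0 := by
  induction s using Finset.induction_on with
  | empty => exact ⟨g, hg a, by simp⟩
  | insert b s hbs ih =>
    rw [Finset.mem_insert, not_or] at ha
    obtain ⟨x, hxa, hxs⟩ := ih ha.2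
    obtain ⟨T, μ, hT, hne⟩ := hsep a b ha.1
    refine ⟨T x - μ b • x, ?_, fun c hc => ?_⟩
    · simp only [map_sub, map_smul, Pi.sub_apply, Pi.smul_apply, hT, smul_eq_mul, ← sub_mul]
      exact mul_ne_zero (sub_ne_zero.2 hne) hxa
    · simp only [map_sub, map_smul, Pi.sub_apply, Pi.smul_apply, hT, smul_eq_mul, ← sub_mul]
      rcases Finset.mem_insert.1 hc with rfl | hc
      · rw [sub_self, zero_mul]
      · rw [hxs c hc, mul_zero]

/-- The trace of a permutation operator with a fixed point. -/
theorem trace_ne_zero_of_separated [FiniteDimensional ℂ W] (hinj : Function.Injective ev) (g : W)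
    (hg : ∀ a, ev g a ≠ 0)
    (hsep : ∀ a b : P, a ≠ b → ∃ (T : W → W) (μ : P → ℂ),
      (∀ x q, ev (T x) q = μ q * ev x q) ∧ μ a ≠ μ b)
    (σ : W →ₗ[ℂ] W) (π : P → P) (hσ : ∀ x q, ev (σ x) q = ev x (π q)) (p₀ : P) (hp : π p₀ = p₀) :
    LinearMap.trace ℂ W σ ≠ 0 := by
  classical
  have hfin : Finite P := by
    by_contra h
    have : Infinite P := not_finite_iff_infinite.1 h
    obtain ⟨s, hs⟩ := Infinite.exists_subset_card_eq P (Module.finrank ℂ W + 1)
    choose x hx hx' using fun a : s => exists_delta_on ev g hg hsep a.1 (s.erase a.1)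
      (Finset.notMem_erase _ _)
    have hli : LinearIndependent ℂ x := by
      rw [Fintype.linearIndependent_iff]
      intro c hc b
      have h1 := congrArg (fun y => ev y b.1) hc
      simp only [map_sum, map_smul, map_zero, Finset.sum_apply, Pi.smul_apply, Pi.zero_apply,
        smul_eq_mul] at h1
      rw [Finset.sum_eq_single b (fun d _ hd => by
        rw [hx' d b.1 (Finset.mem_erase.2 ⟨fun e => hd (Subtype.ext e.symm), b.2⟩), mul_zero])
        (fun h => absurd (Finset.mem_univ b) h)] at h1
      exact (mul_eq_zero.1 h1).resolve_right (hx b)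
    have := hli.fintype_card_le_finrank
    rw [Fintype.card_coe, hs] at this
    omega
  have := Fintype.ofFinite P
  choose x hx hx' using fun a : P => exists_delta_on ev g hg hsep a (Finset.univ.erase a)
    (Finset.notMem_erase _ _)
  have hsurj : Function.Surjective ev := by
    intro F
    refine ⟨∑ a, (F a / ev (x a) a) • x a, funext fun b => ?_⟩
    simp only [map_sum, map_smul, Finset.sum_apply, Pi.smul_apply, smul_eq_mul]
    rw [Finset.sum_eq_single b (fun d _ hd => by
      rw [hx' d b (Finset.mem_erase.2 ⟨hd.symm, Finset.mem_univ b⟩), mul_zero])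
      (fun h => absurd (Finset.mem_univ b) h), div_mul_cancel₀ _ (hx b)]
  set e := LinearEquiv.ofBijective ev ⟨hinj, hsurj⟩
  rw [← LinearMap.trace_conj' σ e, LinearMap.trace_eq_matrix_trace ℂ (Pi.basisFun ℂ P),
    Matrix.trace]
  have hdiag : ∀ a : P, Matrix.diag (LinearMap.toMatrix (Pi.basisFun ℂ P) (Pi.basisFun ℂ P)
      (e.conj σ)) a = if π a = a then 1 else 0 := by
    intro a
    rw [Matrix.diag_apply, LinearMap.toMatrix_apply, Pi.basisFun_repr, Pi.basisFun_apply,
      LinearEquiv.conj_apply_apply]
    show ev (σ (e.symm _)) a = _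
    rw [hσ, show ev (e.symm (Pi.single a 1)) = Pi.single a 1 from e.apply_symm_apply _,
      Pi.single_apply]
  rw [Finset.sum_congr rfl fun a _ => hdiag a, Finset.sum_boole, Nat.cast_ne_zero,
    Finset.card_ne_zero]
  exact ⟨p₀, Finset.mem_filter.2 ⟨Finset.mem_univ _, hp⟩⟩

end Fermat.Agent.WeightOneLift
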