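import Fermat.Agent.WeightOneLift.TestCharacters.Base
import Fermat.Agent.WeightOneLift.TestCharacters.Perm

/-!
# The trace of the test operator composed with the square of the automorphism

The forms of the character are the functions on the torus domain modulo the level, and the
automorphism permutes its points fixing the class of one.
-/

noncomputable section

open IsDedekindDomain NumberField
open scoped WithZero

namespace Fermat.Agent.WeightOneLift

open Fermat.Agent.ResidualThree
open Fermat.Agent.ResidualThree.Orbital (comapPlace localAut)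
open Fermat.Agent.ResidualThree.Tree (lev lev_le_one)

variable {F : Type} [Field F] [NumberField F]

theorem psiAt_ne_zero (w : FPlace F) (z : w.adicCompletion F) : psiAt w z ≠ 0 :=
  Complex.exp_ne_zero _

/-- Ideles trivial outside `S` and near one at `S`. -/
def nearOne (S : Finset (FPlace F)) (d : FPlace F → ℕ) (hd : ∀ v ∈ S, 1 ≤ d v) :
    Subgroup (Idl F) where
  carrier := {x | (∀ v ∉ S, x.1 v = 1) ∧
    ∀ v ∈ S, valv v ((x.1 v : v.adicCompletion F) - 1) ≤ lev (d v)}
  one_mem' := by
    refine ⟨fun v _ => rfl, fun v _ => ?_⟩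
    show valv v ((((1 : (v.adicCompletion F)ˣ)) : v.adicCompletion F) - 1) ≤ _
    rw [Units.val_one, sub_self, map_zero]
    exact zero_le
  mul_mem' {x y} hx hy := by
    refine ⟨fun v hv => ?_, fun v hv => ?_⟩
    · show x.1 v * y.1 v = 1
      rw [hx.1 v hv, hy.1 v hv, mul_one]
    · show valv v (((x.1 v * y.1 v : (v.adicCompletion F)ˣ) : v.adicCompletion F) - 1) ≤ _
      rw [Units.val_mul, show (x.1 v : v.adicCompletion F) * y.1 v - 1 =
        ((x.1 v : v.adicCompletion F) - 1) * y.1 v + ((y.1 v : v.adicCompletion F) - 1) by ring]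
      refine (valv v).map_add_le ?_ (hy.2 v hv)
      rw [map_mul, v_eq_one_of_near (hd v hv) (hy.2 v hv), mul_one]
      exact hx.2 v hv
  inv_mem' {x} hx := by
    refine ⟨fun v hv => ?_, fun v hv => ?_⟩
    · show (x.1 v)⁻¹ = 1
      rw [hx.1 v hv, inv_one]
    · show valv v ((((x.1 v)⁻¹ : (v.adicCompletion F)ˣ) : v.adicCompletion F) - 1) ≤ _
      rw [show (((x.1 v)⁻¹ : (v.adicCompletion F)ˣ) : v.adicCompletion F) - 1 =
        -(((x.1 v : v.adicCompletion F) - 1) * ((x.1 v)⁻¹ : (v.adicCompletion F)ˣ)) by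
        rw [sub_mul, Units.mul_inv, one_mul, neg_sub],
        Valuation.map_neg, map_mul, Units.val_inv_eq_inv_val, map_inv₀,
        v_eq_one_of_near (hd v hv) (hx.2 v hv), inv_one, mul_one]
      exact hx.2 v hv

variable {f : F ≃+* F} {S : Finset (FPlace F)}

namespace CharParams

variable (P : CharParams f S)

/-- The torus domain. -/
def dom : Subgroup (Idl F) := nearOne S P.k P.one_le_k

/-- The part of the domain inside the level. -/
def domLevel : Subgroup (Idl F) := nearOne S P.m fun _ hv => P.one_le_m hv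

/-- The points of the domain modulo the level. -/
abbrev Pt : Type := P.dom ⧸ P.domLevel.subgroupOf P.dom

/-- The automorphism preserves the groups of ideles near one. -/
theorem autIdl_mem {d : FPlace F → ℕ} {hd : ∀ v ∈ S, 1 ≤ d v}
    (hdc : ∀ w, d (comapPlace f w) = d w) {x : Idl F} (hx : x ∈ nearOne S d hd)
    (P : CharParams f S) : autIdl f x ∈ nearOne S d hd := by
  refine ⟨fun v hv => Units.ext ?_, fun v hv => ?_⟩
  · rw [coe_autIdl, hx.1 _ fun h => hv ((P.stable v).1 h), Units.val_one, map_one, Units.val_one]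
  · rw [coe_autIdl, ← map_one (localAut f v), ← map_sub, Orbital.valv_localAut, ← hdc v]
    exact hx.2 _ ((P.stable v).2 hv)

/-- Equal to the scaling at `S` and normalised elsewhere. -/
def IsCentre (c : Idl F) : Prop :=
  (∀ v ∈ S, c.1 v = P.νUnit v) ∧
    ∀ v ∉ S, valv v (c.1 v : v.adicCompletion F) = WithZero.exp (cond v)

variable {P}

theorem isCentre_centre {t : Idl F} (ht : IsBaseIdl S t) : P.IsCentre (P.centre t) :=
  ⟨fun v hv => idlOn_mem hv, fun v hv => by rw [centre, idlOn_not hv]; exact ht v hv⟩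

theorem IsCentre.autIdl {c : Idl F} (hc : P.IsCentre c) : P.IsCentre (autIdl f c) := by
  refine ⟨fun v hv => Units.ext ?_, fun v hv => ?_⟩
  · rw [coe_autIdl, hc.1 _ ((P.stable v).2 hv), coe_νUnit, Orbital.localAut_coe, P.fix, coe_νUnit]
  · rw [valv_autIdl, hc.2 _ fun h => hv ((P.stable v).1 h), cond_comapPlace]

variable [IsTotallyComplex F] {a : FPlace F → ℂ} {φ : Gf F → Hyp F → ℂ}

/-- The coefficients agree over all centres. -/
theorem coef_centre_eq (hφ : φ ∈ levelForms S a P.level ⊓ P.charForms) {c c' : Idl F}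
    (hc : P.IsCentre c) (hc' : P.IsCentre c') (x : Idl F) :
    coef φ (c' * x) = coef φ (c * x) := by
  rw [show c' * x = c * x * (c⁻¹ * c') by
    rw [mul_comm c x, mul_assoc x c, mul_inv_cancel_left, mul_comm x c']]
  refine coef_mul_unit hφ _ _ (fun v hv => ?_) (fun v hv => ?_)
  · show valv v (((c.1 v)⁻¹ * c'.1 v : (v.adicCompletion F)ˣ) : v.adicCompletion F) = 1
    rw [Units.val_mul, map_mul, Units.val_inv_eq_inv_val, map_inv₀, hc.2 v hv, hc'.2 v hv,
      inv_mul_cancel₀ WithZero.exp_ne_zero]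
  · show valv v ((((c.1 v)⁻¹ * c'.1 v : (v.adicCompletion F)ˣ) : v.adicCompletion F) - 1) ≤ _
    rw [hc.1 v hv, hc'.1 v hv, inv_mul_cancel, Units.val_one, sub_self, map_zero]
    exact zero_le

/-- The coefficients are constant modulo the level. -/
theorem coef_domLevel (hφ : φ ∈ levelForms S a P.level ⊓ P.charForms) {r : Idl F}
    (hr : r ∈ P.domLevel) (y : Idl F) : coef φ (y * r) = coef φ y :=
  coef_mul_unit hφ _ _ (fun v hv => by rw [hr.1 v hv, Units.val_one, map_one]) hr.2

variable (P a)

/-- The forms of the character inside the forms of the deep level. -/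
def charSub : Submodule ℂ (levelForms S a P.level) :=
  Submodule.comap (levelForms S a P.level).subtype P.charForms

variable {P a}

theorem charSub_mem (x : P.charSub a) :
    ((x : levelForms S a P.level) : Gf F → Hyp F → ℂ) ∈ levelForms S a P.level ⊓ P.charForms :=
  ⟨(x : levelForms S a P.level).2, x.2⟩

/-- The coefficients on the domain. -/
def evalDom (c : Idl F) : P.charSub a →ₗ[ℂ] (P.Pt → ℂ) where
  toFun x q := coef ((x : levelForms S a P.level) : Gf F → Hyp F → ℂ) (c * (q.out : Idl F))
  map_add' x y := funext fun _ => fourierCoeff_add (charSub_mem x).1.2 (charSub_mem y).1.2 _ _ _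
  map_smul' r x := funext fun _ => fourierCoeff_smul (charSub_mem x).1.2 r _ _ _

/-- The value at the class of a point is the coefficient at the point. -/
theorem evalDom_mk (c : Idl F) (x : P.charSub a) (y : P.dom) :
    evalDom c x (y : P.Pt) =
      coef ((x : levelForms S a P.level) : Gf F → Hyp F → ℂ) (c * (y : Idl F)) := by
  obtain ⟨r, hr⟩ := QuotientGroup.mk_out_eq_mul (P.domLevel.subgroupOf P.dom) y
  show coef _ (c * _) = _
  rw [hr, Subgroup.coe_mul, ← mul_assoc]
  exact coef_domLevel (charSub_mem x) r.2 _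

/-- A form of the character is determined by its coefficients on the torus domain. -/
theorem evalDom_injective {t : Idl F} (ht : IsBaseIdl S t) :
    Function.Injective (evalDom (P := P) (a := a) (P.centre t)) := by
  refine (injective_iff_map_eq_zero _).2 fun x hx => ?_
  set φ := ((x : levelForms S a P.level) : Gf F → Hyp F → ℂ) with hφdef
  have hφ : φ ∈ levelForms S a P.level ⊓ P.charForms := charSub_mem x
  suffices h : φ = 0 from Subtype.ext (Subtype.ext h)
  refine hφ.1.1.eq_zero fun t' p ht' => ?_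
  refine fourierCoeff_eq_zero_of_base hφ.1.2 hφ.1.1.spectral hφ.1.1.bounded one_ne_zero ?_ p
  show coef φ t' = 0
  by_contra hne
  have hy : P.shift t' ∈ P.dom := by
    refine ⟨fun v hv => by rw [shift, idlOn_not hv]; rfl, fun v hv => ?_⟩
    rw [shift, idlOn_mem hv, Units.val_mul, Units.val_inv_eq_inv_val, coe_νUnit]
    exact coef_support hφ hne hv
  have h0 := congrFun hx ((⟨P.shift t', hy⟩ : P.dom) : P.Pt)
  rw [evalDom_mk, Pi.zero_apply] at h0
  refine hne ?_
  rw [← P.centre_mul_shift t', coef_centre_eq hφ (isCentre_centre ht) (isCentre_centre ht')]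
  exact h0

/-- Two points of the torus domain are separated by a multiplier. -/
theorem separated (c : Idl F) (hc : P.IsCentre c) (q q' : P.Pt) (h : q ≠ q') :
    ∃ (T : P.charSub a → P.charSub a) (μ : P.Pt → ℂ),
      (∀ x r, evalDom c (T x) r = μ r * evalDom c x r) ∧ μ q ≠ μ q' := by
  classical
  set x := (q.out : Idl F)
  set y := (q'.out : Idl F)
  have hx : x ∈ P.dom := q.out.2
  have hy : y ∈ P.dom := q'.out.2
  have hnot : y⁻¹ * x ∉ P.domLevel := fun hmem => h <| by
    rw [← QuotientGroup.out_eq' q, ← QuotientGroup.out_eq' q', eq_comm, QuotientGroup.eq]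
    exact hmem
  obtain ⟨w, hw, hlt⟩ : ∃ w ∈ S,
      lev (P.m w) < valv w (((y⁻¹ * x).1 w : w.adicCompletion F) - 1) := by
    by_contra! hall
    exact hnot ⟨(mul_mem (inv_mem hy) hx).1, hall⟩
  set d := (x.1 w : w.adicCompletion F) - y.1 w
  set N := algebraMap F (w.adicCompletion F) P.ν
  have hN : valv w N = WithZero.exp (P.s w : ℤ) := P.valv_ν hw
  have hy1 : valv w (y.1 w : w.adicCompletion F) = 1 :=
    v_eq_one_of_near (P.one_le_k w hw) (hy.2 w hw)
  have hd : lev (P.m w) < valv w d := by
    rw [show ((y⁻¹ * x).1 w : w.adicCompletion F) - 1 =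
      ((y.1 w)⁻¹ : (w.adicCompletion F)ˣ) * d by
      show (((y.1 w)⁻¹ * x.1 w : (w.adicCompletion F)ˣ) : w.adicCompletion F) - 1 = _
      rw [Units.val_mul, mul_sub, Units.inv_mul], map_mul, Units.val_inv_eq_inv_val, map_inv₀, hy1,
      inv_one, one_mul] at hlt
    exact hlt
  have hd0 : d ≠ 0 := fun e => by rw [e, map_zero] at hd; exact not_lt_zero hd
  have hN0 : N ≠ 0 := fun e => by rw [e, map_zero] at hN; exact WithZero.exp_ne_zero hN.symm
  obtain ⟨z₀, hz₀, hne⟩ := exists_psiAt_ne_one_of_cond w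
  set b := z₀ * (N * d)⁻¹
  have hb : valv w b ≤ lev (P.k w) := by
    have h0 : valv w d ≠ 0 := (valv w).ne_zero_iff.2 hd0
    rw [lev, ← WithZero.exp_log h0, WithZero.exp_lt_exp] at hd
    rw [map_mul, map_inv₀, map_mul, hz₀, hN, ← WithZero.exp_log h0, lev, ← WithZero.exp_add,
      ← WithZero.exp_neg, ← WithZero.exp_add, WithZero.exp_le_exp]
    have := P.k_eq w hw
    omega
  refine ⟨fun z => ⟨⟨_, (rightTr_unip_mem (charSub_mem z) hw hb).1⟩,
      (rightTr_unip_mem (charSub_mem z) hw hb).2⟩,
    fun r => psiAt w (-(N * ((r.out : Idl F).1 w : w.adicCompletion F) * b)), fun z r => ?_, ?_⟩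
  · show coef (rightTr _ _) (c * (r.out : Idl F)) = _
    rw [coef_rightTr_unip (charSub_mem z).1.2]
    show psiAt w (-(((c.1 w * (r.out : Idl F).1 w : (w.adicCompletion F)ˣ) :
      w.adicCompletion F) * b)) * _ = _
    rw [Units.val_mul, hc.1 w hw, coe_νUnit]
    rfl
  · intro e
    refine hne ?_
    have hz : z₀ = N * d * b := by
      simp only [b]; field_simp
    have e2 : psiAt w (-(N * (y.1 w : w.adicCompletion F) * b)) =
        psiAt w z₀ * psiAt w (-(N * (x.1 w : w.adicCompletion F) * b)) := by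
      rw [← psiAt_add, hz]
      congr 1
      simp only [d]; ring
    change psiAt w (-(N * (x.1 w : w.adicCompletion F) * b)) =
      psiAt w (-(N * (y.1 w : w.adicCompletion F) * b)) at e
    rw [e2] at e
    exact (mul_left_eq_self₀.1 e.symm).resolve_right (psiAt_ne_zero w _)

/-- The twisted trace does not vanish. -/
theorem trace_testOp_ne_zero (hh : IsHeckeFn (levelAt P.level S) P.testFn)
    [FiniteDimensional ℂ (levelForms S a P.level)] (ha : ∀ w, a (comapPlace f w) = a w)
    {t : Idl F} (ht : IsBaseIdl S t) {Φ : Gf F → Hyp F → ℂ}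
    (hΦ : Φ ∈ levelForms S a P.level ⊓ P.charForms)
    (hΦne : ∀ x : Idl F, (∀ v ∉ S, x.1 v = 1) →
      (∀ v ∈ S, valv v ((x.1 v : v.adicCompletion F) - 1) ≤ lev (P.k v)) →
      coef Φ (P.centre t * x) ≠ 0)
    (hX : ∀ φ ∈ levelForms S a P.level,
      (heckeLin hh * (sigmaFn f * sigmaFn f)) φ ∈ levelForms S a P.level) :
    LinearMap.trace ℂ _ ((heckeLin hh * (sigmaFn f * sigmaFn f)).restrict hX) ≠ 0 := by
  have hσV : ∀ φ ∈ levelForms S a P.level, (sigmaFn f * sigmaFn f) φ ∈ levelForms S a P.level :=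
    fun φ hφ => by
    have h1 := sigmaFn_mem_levelForms f P.isStableLevel_level P.stable
      (fun _ hw => levelOn_not hw) ha hφ
    exact sigmaFn_mem_levelForms f P.isStableLevel_level P.stable (fun _ hw => levelOn_not hw) ha h1
  set X := (heckeLin hh * (sigmaFn f * sigmaFn f)).restrict hX with hXdef
  have hrange : ∀ x, X x ∈ P.charSub a := fun x =>
    heckeLin_mem_charForms hh (placeTr_fixed (hσV _ x.2).2)
  have hσW : ∀ x ∈ P.charSub a, (sigmaFn f * sigmaFn f).restrict hσV x ∈ P.charSub a :=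
    fun x hx => sigmaFn_mem_charForms (sigmaFn_mem_charForms hx)
  set σ₂ := ((sigmaFn f * sigmaFn f).restrict hσV).restrict hσW with hσ₂
  have hXW : X.restrict (fun x _ => hrange x) = (hh.fin.toFinset.card : ℂ) • σ₂ :=
    LinearMap.ext fun x => Subtype.ext (Subtype.ext
      (heckeLin_eq_smul hh (hσW x.1 x.2)))
  rw [← LinearMap.trace_restrict_eq_of_forall_mem (P.charSub a) X hrange, hXW, map_smul,
    smul_eq_mul]
  refine mul_ne_zero (Nat.cast_ne_zero.2 (card_pos hh).ne') ?_
  have hc := isCentre_centre (P := P) ht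
  let g : P.charSub a := ⟨⟨Φ, hΦ.1⟩, hΦ.2⟩
  have hauto : ∀ x : Idl F, x ∈ P.dom → autIdl f (autIdl f x) ∈ P.dom := fun x hx =>
    autIdl_mem P.k_comap (autIdl_mem P.k_comap hx P) P
  let π : P.Pt → P.Pt := fun q =>
    ((⟨autIdl f (autIdl f (q.out : Idl F)), hauto _ q.out.2⟩ : P.dom) : P.Pt)
  let ev : P.charSub a →ₗ[ℂ] (P.Pt → ℂ) := evalDom (P.centre t)
  refine trace_ne_zero_of_separated (W := P.charSub a) (P := P.Pt) ev (evalDom_injective ht) g
    (fun q => hΦne _ q.out.2.1 q.out.2.2) (separated _ hc) σ₂ π (fun x q => ?_)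
    ((1 : P.dom) : P.Pt) ?_
  · show coef (sigmaFn f (sigmaFn f ((x : levelForms S a P.level) : Gf F → Hyp F → ℂ))) _ = _
    rw [coef_sigmaFn (isAutomorphic_sigmaFn f P.isStableLevel_level (charSub_mem x).1.2),
      coef_sigmaFn (charSub_mem x).1.2, map_mul, map_mul, evalDom_mk]
    exact coef_centre_eq (charSub_mem x) hc hc.autIdl.autIdl _
  · show ((_ : P.dom) : P.Pt) = _
    rw [QuotientGroup.eq, mul_one, Subgroup.mem_subgroupOf]
    show (autIdl f (autIdl f _))⁻¹ ∈ P.domLevel
    refine inv_mem (autIdl_mem P.m_comap (autIdl_mem P.m_comap ?_ P) P)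
    obtain ⟨r, hr⟩ := QuotientGroup.mk_out_eq_mul (P.domLevel.subgroupOf P.dom) (1 : P.dom)
    rw [hr, one_mul]
    exact r.2

end CharParams

end Fermat.Agent.WeightOneLift
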