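import Fermat.Agent.ResidualThree.CubicDescent.TransferLevels
import Fermat.Agent.WeightOneLift.TestCharacters.Choose
import Fermat.Agent.WeightOneLift.TestCharacters.Trace

/-!
# Test characters with non-zero twisted trace exist
-/

noncomputable section

open IsDedekindDomain NumberField
open scoped WithZero

namespace Fermat.Agent.WeightOneLift

open Fermat.Agent.ResidualThree
open Fermat.Agent.ResidualThree.Orbital (comapPlace)

variable {K L : Type} [Field K] [NumberField K] [Field L] [NumberField L] [Algebra K L]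
  [IsTotallyComplex L] (τ : Orbital.CubicAut K L)

/-- A non-zero eigenform has a non-zero coefficient at a normalised point. -/
theorem exists_coef_ne_zero {S : Finset (FPlace L)} {a : FPlace L → ℂ} {θ : Gf L → Hyp L → ℂ}
    {U : Level L} (hU : IsAutomorphic U θ) (hθ : IsEigenForm (S : Set (FPlace L)) a θ)
    (hθ0 : θ ≠ 0) : ∃ t : Idl L, IsBaseIdl S t ∧ CharParams.coef θ t ≠ 0 := by
  by_contra! h
  exact hθ0 (hθ.eq_zero fun t p ht =>
    fourierCoeff_eq_zero_of_base hU hθ.spectral hθ.bounded one_ne_zero (h t ht) p)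

omit [IsTotallyComplex L] in
theorem congInd_eq_ite {w : FPlace L} (n : ℕ) (g : GLv w) [Decidable (g ∈ congSubgroup w n)] :
    Tree.congInd w n g = if g ∈ congSubgroup w n then 1 else 0 := by
  unfold Tree.congInd
  split_ifs <;> rfl

omit [NumberField K] in
/-- **The test characters**. -/
theorem testCharactersExist : TestCharactersExist τ := by
  classical
  intro S hS a ha θ hθ hθ0
  obtain ⟨U₀, hU₀, hmax'⟩ := hθ.exists_level
  have hmax : ∀ v ∉ S, U₀.J v = maxSubgroup v := fun v hv => hmax' v (by simpa using hv)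
  obtain ⟨t, ht, htne⟩ := exists_coef_ne_zero hU₀ hθ hθ0
  choose e he using fun v => U₀.exists_cong v
  set n₀ : FPlace L → ℕ := fun v => e v + 1
  set Lg : FPlace L → ℤ := fun v => WithZero.log (valv v (t.1 v : v.adicCompletion L))
  obtain ⟨P, hP⟩ := exists_charParams τ.σ.toRingEquiv S hS Tree.threeLev
    (fun v => n₀ v + (Lg v).natAbs) (threeLev_comapPlace τ.σ.toRingEquiv)
  refine ⟨{
    χ := fun w => charFn w P.ν
    n := P.n
    E := P.E
    lt_n := fun w hw => (hP w hw).1
    le_E := fun w hw => (hP w hw).2.1 ▸ P.m_le_E w hw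
    n_comap := P.n_comap
    E_comap := P.E_comap
    mul := fun w hw g hg h hh => P.charFn_mul hw hg hh
    ker := fun w hw g hg => P.charFn_eq_one hw hg
    equivariant := fun w _ g _ => P.charFn_equivariant w g },
      fun UL hUL hULmax hFD h hh hfn hX => ?_⟩
  obtain rfl : UL = P.level := level_ext fun w => by
    by_cases hw : w ∈ S
    · rw [CharParams.level, levelOn_mem hw]; exact hUL w hw
    · rw [CharParams.level, levelOn_not hw, hULmax w hw]
  have hsupp : ∀ z : placeSubgroup S, z ∈ P.supp ↔ ∀ w ∈ S,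
      ((z : Gf L) : ∀ v, GLv v) w ∈ congSubgroup w (P.n w + Tree.threeLev w) := fun z => by
    rw [CharParams.supp, mem_levelAt_levelOn]
    exact forall₂_congr fun w hw => by rw [(hP w hw).2.1]
  obtain rfl : h = P.testFn := funext fun z => by
    rw [hfn z]
    by_cases hz : z ∈ P.supp
    · rw [P.testFn_of_mem hz, CharParams.charS]
      refine Finset.prod_congr rfl fun w hw => ?_
      show charFn w P.ν _ * Tree.congInd w _ _ = _
      rw [congInd_eq_ite, if_pos ((hsupp z).1 hz w hw), mul_one]
    · obtain ⟨w, hw, hwz⟩ : ∃ w ∈ S,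
          ((z : Gf L) : ∀ v, GLv v) w ∉ congSubgroup w (P.n w + Tree.threeLev w) := by
        by_contra! hall
        exact hz ((hsupp z).2 hall)
      rw [CharParams.testFn, if_neg hz]
      refine Finset.prod_eq_zero hw ?_
      show charFn w P.ν _ * Tree.congInd w _ _ = 0
      rw [congInd_eq_ite, if_neg hwz, mul_zero]
  obtain ⟨Φ, hΦ, hΦne⟩ := CharParams.exists_base (n₀ := n₀) (L := Lg) (t := t) hh hU₀ hθ hmax
    (fun w _ => Nat.le_add_left 1 _)
    (fun w _ => (congSubgroup_antitone w (Nat.le_add_right _ 1)).trans (he w))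
    (fun w _ => (WithZero.exp_log (by simp)).symm)
    (fun w hw => (Nat.le_add_right _ _).trans (hP w hw).2.2.1)
    (fun w hw => (Nat.le_add_right _ _).trans (hP w hw).2.2.2.1)
    (fun w hw => by have := (hP w hw).2.2.2.2.2; rw [Int.abs_eq_natAbs]; omega)
    (fun w hw => by have := (hP w hw).2.2.2.2.1; rw [Int.abs_eq_natAbs]; omega) htne
  exact CharParams.trace_testOp_ne_zero hh ha ht hΦ hΦne hX

end Fermat.Agent.WeightOneLift
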