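import Fermat.Agent.WeightOneLift.TestCharacters.Ops

/-!
# A form of the character with nowhere vanishing coefficient on the torus domain
-/

noncomputable section

open IsDedekindDomain NumberField
open scoped WithZero

namespace Fermat.Agent.WeightOneLift

open Fermat.Agent.ResidualThree
open Fermat.Agent.ResidualThree.Orbital (comapPlace localAut localAutGL)
open Fermat.Agent.ResidualThree.Tree (lev lev_le lev_mul lev_le_one)

variable {F : Type} [Field F] [NumberField F] {S : Finset (FPlace F)}

theorem Af_coe_sum (z : FPlace F → Af F) (s : Finset (FPlace F)) (v : FPlace F) :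
    (∑ w ∈ s, z w).1 v = ∑ w ∈ s, (z w).1 v := by
  rw [AddSubgroup.val_finsetSum, Finset.sum_apply]

theorem psiFin_zero : psiFin (0 : Af F) = 1 :=
  psiFin_of_integral fun v => by
    show valv v 0 ≤ 1
    rw [map_zero]; exact zero_le

/-- The character of an adele supported on a finite set. -/
theorem psiFin_eq_prod (z : Af F) (hz : ∀ v ∉ S, z.1 v = 0) :
    psiFin z = ∏ w ∈ S, psiAt w (z.1 w) := by
  classical
  have e : z = ∑ w ∈ S, singleAdele w (z.1 w) := by
    refine Subtype.ext (funext fun v => ?_)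
    rw [Af_coe_sum]
    by_cases hv : v ∈ S
    · rw [Finset.sum_eq_single_of_mem v hv fun w _ h => ?_]
      · exact (Pi.single_eq_same (M := fun u : FPlace F => u.adicCompletion F) v _).symm
      · exact Pi.single_eq_of_ne (M := fun u : FPlace F => u.adicCompletion F) h.symm _
    · rw [Finset.sum_eq_zero fun w hw => ?_]
      · exact hz v hv
      · exact Pi.single_eq_of_ne (M := fun u : FPlace F => u.adicCompletion F)
          (ne_of_mem_of_not_mem hw hv).symm _
  conv_lhs => rw [e]
  have : ∀ s : Finset (FPlace F), psiFin (∑ w ∈ s, singleAdele w (z.1 w)) =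
      ∏ w ∈ s, psiAt w (z.1 w) := fun s => by
    induction s using Finset.induction_on with
    | empty => rw [Finset.sum_empty, Finset.prod_empty, psiFin_zero]
    | insert w s hw ih => rw [Finset.sum_insert hw, psiFin_add, ih, Finset.prod_insert hw]; rfl
  exact this S

/-- An adele multiplied by an idele. -/
def mulAdele (t : Idl F) (z : Af F) : Af F :=
  ⟨fun v => (t.1 v : v.adicCompletion F) * z.1 v, mem_Af.2 <| by
    have ht : ∀ᶠ v : FPlace F in Filter.cofinite, valv v (t.1 v : v.adicCompletion F) = 1 := t.2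
    filter_upwards [ht, mem_Af.1 z.2] with v h1 h2
    rwa [map_mul, h1, one_mul]⟩

theorem torusPt_mul_unipAdele (t : Idl F) (z : Af F) :
    torusPt t * unipAdele z = unipAdele (mulAdele t z) * torusPt t :=
  Subtype.ext (funext fun v => torusGL_unipHom (t.1 v) (z.1 v))

open Classical in
/-- The idele equal to `u` on `S` and to `t` elsewhere. -/
def idlOn (S : Finset (FPlace F)) (u : ∀ v : FPlace F, (v.adicCompletion F)ˣ) (t : Idl F) : Idl F :=
  ⟨fun v => if v ∈ S then u v else t.1 v,
    show ∀ᶠ v : FPlace F in Filter.cofinite,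
        valv v ((if v ∈ S then u v else t.1 v : (v.adicCompletion F)ˣ) : v.adicCompletion F) = 1 by
      have ht : ∀ᶠ v : FPlace F in Filter.cofinite, valv v (t.1 v : v.adicCompletion F) = 1 := t.2
      filter_upwards [ht, S.finite_toSet.compl_mem_cofinite] with v h hv
      rwa [if_neg (show v ∉ S by simpa using hv)]⟩

theorem idlOn_mem {u : ∀ v : FPlace F, (v.adicCompletion F)ˣ} {t : Idl F} {v : FPlace F}
    (hv : v ∈ S) : (idlOn S u t).1 v = u v := by
  classical exact if_pos hv

theorem idlOn_not {u : ∀ v : FPlace F, (v.adicCompletion F)ˣ} {t : Idl F} {v : FPlace F}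
    (hv : v ∉ S) : (idlOn S u t).1 v = t.1 v := by
  classical exact if_neg hv

namespace CharParams

variable {f : F ≃+* F} (P : CharParams f S)

/-- The scaling as a unit of a completion. -/
def νUnit (v : FPlace F) : (v.adicCompletion F)ˣ :=
  Units.map (algebraMap F (v.adicCompletion F)).toMonoidHom (Units.mk0 P.ν P.ν_ne)

theorem coe_νUnit (v : FPlace F) :
    (P.νUnit v : v.adicCompletion F) = algebraMap F (v.adicCompletion F) P.ν := rfl

/-- The centre of the torus domain over a normalised point. -/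
def centre (t : Idl F) : Idl F := idlOn S P.νUnit t

/-- The shift from the centre to the point. -/
def shift (t : Idl F) : Idl F := idlOn S (fun v => t.1 v * (P.νUnit v)⁻¹) 1

/-- An idèle is the product of its centre and its shift. -/
theorem centre_mul_shift (t : Idl F) : P.centre t * P.shift t = t := by
  refine Subtype.ext (funext fun v => ?_)
  show (P.centre t).1 v * (P.shift t).1 v = t.1 v
  by_cases hv : v ∈ S
  · rw [centre, shift, idlOn_mem hv, idlOn_mem hv, mul_left_comm, mul_inv_cancel, mul_one]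
  · rw [centre, shift, idlOn_not hv, idlOn_not hv]
    exact mul_one _

variable {P} [IsTotallyComplex F] {a : FPlace F → ℂ} {U₀ : Level F} {θ : Gf F → Hyp F → ℂ}
  {n₀ : FPlace F → ℕ} {L : FPlace F → ℤ} {t : Idl F}

omit [IsTotallyComplex F] in
/-- Conjugation by the shift carries a deep congruence subgroup into the level of `θ`. -/
theorem shift_conj_mem (hn₀1 : ∀ w ∈ S, 1 ≤ n₀ w)
    (hL : ∀ w ∈ S, valv w (t.1 w : w.adicCompletion F) = WithZero.exp (L w)) {w : FPlace F}
    (hw : w ∈ S) {j : ℕ} (hj : n₀ w ≤ j) {g : GLv w} (hg : g ∈ congSubgroup w j)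
    (h01 : valv w (qEntry g 0 1) * (WithZero.exp (L w - P.s w))⁻¹ ≤ lev (n₀ w))
    (h10 : valv w (qEntry g 1 0) * WithZero.exp (L w - P.s w) ≤ lev (n₀ w)) :
    (((torusPt (P.shift t) : Gf F) : ∀ v, GLv v) w)⁻¹ * g *
      ((torusPt (P.shift t) : Gf F) : ∀ v, GLv v) w ∈ congSubgroup w (n₀ w) := by
  set δ := (P.shift t).1 w with hδdef
  have hv : valv w (δ : w.adicCompletion F) = WithZero.exp (L w - P.s w) := by
    rw [hδdef, shift, idlOn_mem hw, Units.val_mul, map_mul, hL w hw, Units.val_inv_eq_inv_val,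
      map_inv₀, coe_νUnit, P.valv_ν hw, ← WithZero.exp_neg, ← WithZero.exp_add, ← sub_eq_add_neg]
  exact torus_conj_mem (v := valv w) (hn₀1 w hw) ((hn₀1 w hw).trans hj) hg δ hj
    (hv ▸ h01) (hv ▸ h10)

/-- A form of the character whose coefficient has no zero on the domain. -/
theorem exists_base (hh : IsHeckeFn (levelAt P.level S) P.testFn)
    (hU₀ : IsAutomorphic U₀ θ) (hθ : IsEigenForm (S : Set (FPlace F)) a θ)
    (hmax : ∀ v ∉ S, U₀.J v = maxSubgroup v) (hn₀1 : ∀ w ∈ S, 1 ≤ n₀ w)
    (hn₀ : ∀ w ∈ S, congSubgroup w (n₀ w) ≤ U₀.J w)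
    (hL : ∀ w ∈ S, valv w (t.1 w : w.adicCompletion F) = WithZero.exp (L w))
    (hk : ∀ w ∈ S, n₀ w ≤ P.k w) (hm : ∀ w ∈ S, n₀ w ≤ P.m w)
    (hE : ∀ w ∈ S, (n₀ w : ℤ) + P.s w + |L w| ≤ P.E w)
    (hs : ∀ w ∈ S, (n₀ w : ℤ) + |L w| ≤ P.s w) (ht : coef θ t ≠ 0) :
    ∃ Φ ∈ levelForms S a P.level ⊓ P.charForms, ∀ x : Idl F, (∀ v ∉ S, x.1 v = 1) →
      (∀ v ∈ S, valv v ((x.1 v : v.adicCompletion F) - 1) ≤ lev (P.k v)) →
      coef Φ (P.centre t * x) ≠ 0 := by
  classical
  set d : Gf F := torusPt (P.shift t) with hd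
  set θ' := rightTr d θ with hθ'def
  have hdout : ∀ v ∉ S, (d : ∀ v, GLv v) v = 1 := fun v hv => by
    show torusGL ((P.shift t).1 v) = 1
    rw [shift, idlOn_not hv]
    exact torusGL_one
  have hθ' : θ' ∈ levelForms S a P.level := by
    refine ⟨hθ.rightTr fun v hv => hdout v (by simpa using hv),
        (hU₀.rightTr d).mono fun v g hg => ?_⟩
    refine ⟨P.level.le_max v hg, Subgroup.mem_comap.2 ?_⟩
    simp only [MulEquiv.toMonoidHom_eq_coe, MonoidHom.coe_coe, MulAut.conj_apply, inv_inv]
    by_cases hv : v ∈ S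
    · rw [level, levelOn_mem hv] at hg
      have hq := (mem_congZ_iff_qEntry (v := valv v) ((hn₀1 v hv).trans ((hm v hv).trans
        (P.m_le_E v hv)))).1 hg
      have hLv := le_abs_self (L v)
      have hLv' := neg_abs_le (L v)
      have := hE v hv
      refine hn₀ v hv (shift_conj_mem hn₀1 hL hv ((hm v hv).trans (P.m_le_E v hv)) hg ?_ ?_)
      · refine (mul_le_mul' hq.2.2.1 le_rfl).trans ?_
        rw [lev, lev, ← WithZero.exp_neg, ← WithZero.exp_add, WithZero.exp_le_exp]
        omega
      · refine (mul_le_mul' hq.2.2.2 le_rfl).trans ?_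
        rw [lev, lev, ← WithZero.exp_add, WithZero.exp_le_exp]
        omega
    · rw [level, levelOn_not hv] at hg
      rw [hdout v hv, inv_one, one_mul, mul_one, hmax v hv]
      exact hg
  have hfix : ∀ j ∈ levelAt P.level S, placeTr S j θ' = θ' := placeTr_fixed hθ'.2
  refine ⟨heckeLin hh θ', ⟨heckeLin_mem hh subset_rfl (fun _ _ => rfl) hθ',
    heckeLin_mem_charForms hh hfix⟩, fun x hxout hxin => ?_⟩
  set τ := P.centre t * x with hτdef
  have hτS : ∀ w ∈ S, (τ.1 w : w.adicCompletion F) =
      algebraMap F (w.adicCompletion F) P.ν * (x.1 w : w.adicCompletion F) := fun w hw => by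
    show (((P.centre t).1 w * x.1 w : (w.adicCompletion F)ˣ) : w.adicCompletion F) = _
    rw [centre, idlOn_mem hw, Units.val_mul, coe_νUnit]
  -- the coefficient of one translate
  have hterm : ∀ y ∈ P.supp, P.charS y * coef (placeTr S y θ') τ = coef θ' τ := by
    intro y hy
    have hy' := mem_levelAt_levelOn.1 hy
    let β : Af F := ⟨fun v => if v ∈ S then qEntry (((y : Gf F) : ∀ v, GLv v) v) 0 1 else 0,
      mem_Af.2 <| by
        filter_upwards [S.finite_toSet.compl_mem_cofinite] with v hv
        rw [if_neg (show v ∉ S by simpa using hv), map_zero]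
        exact zero_le⟩
    have hβS : ∀ v ∈ S, β.1 v = qEntry (((y : Gf F) : ∀ v, GLv v) v) 0 1 := fun v hv => if_pos hv
    have hβ0 : ∀ v ∉ S, β.1 v = 0 := fun v hv => if_neg hv
    set low : Gf F := (unipAdele β)⁻¹ * (y : Gf F) with hlow
    have hlow_fix : rightTr low θ' = θ' := by
      have hmem : ∀ v, ((d⁻¹ * low * d : Gf F) : ∀ v, GLv v) v ∈ U₀.J v := by
        intro v
        show ((d : ∀ v, GLv v) v)⁻¹ * ((unipHom _ (β.1 v))⁻¹ * ((y : Gf F) : ∀ v, GLv v) v) *
          (d : ∀ v, GLv v) v ∈ _
        by_cases hv : v ∈ S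
        · have hm1 := P.one_le_m hv
          set g := ((y : Gf F) : ∀ v, GLv v) v
          have hinv : (unipHom (v.adicCompletion F) (qEntry g 0 1))⁻¹ =
              unipHom _ (-qEntry g 0 1) :=
            inv_eq_of_mul_eq_one_left (by rw [← unipHom_add, neg_add_cancel, unipHom_zero])
          rw [hβS v hv, hinv]
          obtain ⟨hl, hl0⟩ := qEntry_lower hm1 (hy' v hv)
          have hq := (mem_congZ_iff_qEntry (v := valv v) hm1).1 hl
          have := hs v hv; have hLv := le_abs_self (L v)
          refine hn₀ v hv (shift_conj_mem hn₀1 hL hv (hm v hv) hl ?_ ?_)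
          · rw [qEntry, hl0, zero_div, map_zero, zero_mul]
            exact zero_le
          · refine (mul_le_mul' hq.2.2.2 le_rfl).trans ?_
            rw [lev, lev, ← WithZero.exp_add, WithZero.exp_le_exp]
            omega
        · rw [hβ0 v hv, unipHom_zero, inv_one, one_mul, y.2 v hv, hdout v hv, inv_one, one_mul,
            mul_one]
          exact one_mem _
      rw [hθ'def, ← rightTr_mul, show low * d = d * (d⁻¹ * low * d) by group, rightTr_mul]
      congr 1
      exact funext fun z => hU₀.right z _ hmem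
    have e1 : coef (placeTr S y θ') τ = psiFin (-(mulAdele τ β)) * coef θ' τ := by
      show coef (rightTr (y : Gf F) θ') τ = _
      rw [show (y : Gf F) = unipAdele β * low by rw [hlow, mul_inv_cancel_left], rightTr_mul,
        hlow_fix, coef, fourierCoeff_rightTr hθ'.2, torusPt_mul_unipAdele,
        fourierCoeff_unipAdele hθ'.2, scaleAdele_one]
      rfl
    rw [e1, ← mul_assoc]
    have hprod : P.charS y * psiFin (-(mulAdele τ β)) = 1 := by
      rw [charS, psiFin_eq_prod (S := S) _ fun v hv => ?_, ← Finset.prod_mul_distrib]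
      · refine Finset.prod_eq_one fun v hv => ?_
        rw [charFn, ← hβS v hv, show (-(mulAdele τ β)).1 v =
          -((τ.1 v : v.adicCompletion F) * β.1 v) from rfl, ← psiAt_add, hτS v hv]
        refine psiAt_eq_one v ?_
        rw [show algebraMap F (v.adicCompletion F) P.ν * β.1 v +
            -(algebraMap F (v.adicCompletion F) P.ν * (x.1 v : v.adicCompletion F) * β.1 v) =
          -(algebraMap F (v.adicCompletion F) P.ν *
            (((x.1 v : v.adicCompletion F) - 1) * β.1 v)) by ring, Valuation.map_neg]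
        refine P.ν_mul_le hv (j := P.k v + P.m v) ?_ ?_
        · have := P.k_eq v hv; push_cast; omega
        · rw [map_mul, ← lev_mul, hβS v hv]
          exact mul_le_mul' (hxin v hv)
            ((mem_congZ_iff_qEntry (v := valv v) (P.one_le_m hv)).1 (hy' v hv)).2.2.1
      · show -((τ.1 v : v.adicCompletion F) * β.1 v) = 0
        rw [hβ0 v hv, mul_zero, neg_zero]
    rw [hprod, one_mul]
  -- the coefficient of the operator
  have hsum : coef (heckeLin hh θ') τ = (hh.fin.toFinset.card : ℂ) * coef θ' τ := by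
    rw [heckeLin, LinearMap.sum_apply, coef]
    refine ((fourierCoeff_finsetSum hh.fin.toFinset
      (fun q => P.testFn q.out • rightTr (q.out : Gf F) θ')
      fun q => ⟨_, (hθ'.2.rightTr _).smul _⟩).2 1 _ _).trans ?_
    rw [Finset.sum_congr rfl fun q hq => ?_, Finset.sum_const, nsmul_eq_mul]
    rw [fourierCoeff_smul (hθ'.2.rightTr _), P.testFn_of_mem (out_mem_supp hh hq)]
    exact hterm _ (out_mem_supp hh hq)
  rw [hsum]
  refine mul_ne_zero (Nat.cast_ne_zero.2 (card_pos hh).ne') ?_
  -- the coefficient at the point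
  rw [coef, hθ'def, fourierCoeff_rightTr hU₀, hd, ← map_mul,
    show τ * P.shift t = t * x by rw [hτdef, mul_right_comm, P.centre_mul_shift], map_mul,
    fourierCoeff_right hU₀ _ _ _ fun v => ?_]
  · exact ht
  · show torusGL (x.1 v) ∈ U₀.J v
    by_cases hv : v ∈ S
    · exact hn₀ v hv (torusGL_mem_congZ (v := valv v) (hn₀1 v hv)
        ((hxin v hv).trans (lev_le (hk v hv))))
    · rw [hxout v hv, torusGL_one]; exact one_mem _

end CharParams

end Fermat.Agent.WeightOneLift
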