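import Fermat.Agent.ResidualThree.Automorphic.FourierRules
import Fermat.Agent.ResidualThree.Tree.CongBasic

/-!
# Congruence subgroups modulo scalars in terms of the quotients by the lower right entry

For `g` congruent to a scalar the quotient `g₀₁ / g₁₁` is additive up to the square of the level.
-/

noncomputable section

open scoped WithZero

namespace Fermat.Agent.WeightOneLift

open Fermat.Agent.ResidualThree (unipHom coe_unipHom torusGL coe_torusGL unipHom_add)
open Fermat.Agent.ResidualThree.Tree (coe_scalar_eq_smul lev congZ congGL Near mem_congZ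
  mem_congGL_of_near
  scalar_mem_congZ congGL_le_congZ nrm nrm_le_iff le_nrm lev_le lev_le_one lev_mul)

variable {F : Type} [Field F] {v : Valuation F ℤᵐ⁰}

/-- The quotient of an entry by the lower right entry. -/
def qEntry (g : GL (Fin 2) F) (i j : Fin 2) : F :=
  (g : Matrix (Fin 2) (Fin 2) F) i j / (g : Matrix (Fin 2) (Fin 2) F) 1 1

theorem qEntry_scalar_mul (s : Fˣ) (g : GL (Fin 2) F) (i j : Fin 2) :
    qEntry (Matrix.GeneralLinearGroup.scalar (Fin 2) s * g) i j = qEntry g i j := by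
  simp only [qEntry, Units.val_mul]
  rw [coe_scalar_eq_smul, Matrix.smul_mul, Matrix.one_mul, Matrix.smul_apply,
    Matrix.smul_apply, smul_eq_mul, smul_eq_mul, mul_div_mul_left _ _ s.ne_zero]

theorem lev_lt_one {n : ℕ} (hn : 1 ≤ n) : lev n < 1 := by
  rw [lev, ← WithZero.exp_zero, WithZero.exp_lt_exp]; omega

theorem v_eq_one_of_near {n : ℕ} (hn : 1 ≤ n) {x : F} (hx : v (x - 1) ≤ lev n) : v x = 1 := by
  have h := v.map_add_eq_of_lt_left (x := 1) (y := x - 1)
    (lt_of_le_of_lt hx (by rw [map_one]; exact lev_lt_one hn))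
  rwa [add_sub_cancel, map_one] at h

/-- Membership in a congruence subgroup modulo scalars. -/
theorem mem_congZ_iff_qEntry {n : ℕ} (hn : 1 ≤ n) {g : GL (Fin 2) F} :
    g ∈ congZ v n ↔ (g : Matrix (Fin 2) (Fin 2) F) 1 1 ≠ 0 ∧ v (qEntry g 0 0 - 1) ≤ lev n ∧
      v (qEntry g 0 1) ≤ lev n ∧ v (qEntry g 1 0) ≤ lev n := by
  constructor
  · intro hg
    obtain ⟨s, k, hk, rfl⟩ := mem_congZ.mp hg
    have hent : ∀ i j, v ((k : Matrix (Fin 2) (Fin 2) F) i j -
        (1 : Matrix (Fin 2) (Fin 2) F) i j) ≤ lev n := fun i j => by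
      have := (le_nrm (v := v) ((k : Matrix (Fin 2) (Fin 2) F) - 1) i j).trans hk.2
      rwa [Matrix.sub_apply] at this
    have h11 : v ((k : Matrix (Fin 2) (Fin 2) F) 1 1) = 1 :=
      v_eq_one_of_near hn (by simpa using hent 1 1)
    have h0 : (k : Matrix (Fin 2) (Fin 2) F) 1 1 ≠ 0 := fun h => by
      rw [h, map_zero] at h11; exact zero_ne_one h11
    refine ⟨?_, ?_, ?_, ?_⟩
    · rw [Units.val_mul, coe_scalar_eq_smul, Matrix.smul_mul, Matrix.one_mul,
        Matrix.smul_apply, smul_eq_mul]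
      exact mul_ne_zero s.ne_zero h0
    · rw [qEntry_scalar_mul, qEntry, div_sub_one h0, map_div₀, h11, div_one]
      rw [show (k : Matrix (Fin 2) (Fin 2) F) 0 0 - (k : Matrix (Fin 2) (Fin 2) F) 1 1 =
        ((k : Matrix (Fin 2) (Fin 2) F) 0 0 - 1) - ((k : Matrix (Fin 2) (Fin 2) F) 1 1 - 1) by ring]
      exact v.map_sub_le (by simpa using hent 0 0) (by simpa using hent 1 1)
    · rw [qEntry_scalar_mul, qEntry, map_div₀, h11, div_one]; simpa using hent 0 1
    · rw [qEntry_scalar_mul, qEntry, map_div₀, h11, div_one]; simpa using hent 1 0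
  · rintro ⟨h0, h00, h01, h10⟩
    set s : Fˣ := Units.mk0 _ h0
    have e : g = Matrix.GeneralLinearGroup.scalar (Fin 2) s *
        (Matrix.GeneralLinearGroup.scalar (Fin 2) s⁻¹ * g) := by
      rw [← mul_assoc, ← map_mul, mul_inv_cancel, map_one, one_mul]
    rw [e]
    refine mul_mem (scalar_mem_congZ s n) (congGL_le_congZ n (mem_congGL_of_near hn ?_))
    refine nrm_le_iff.mpr fun i j => ?_
    rw [Matrix.sub_apply, Units.val_mul, coe_scalar_eq_smul, Matrix.smul_mul,
      Matrix.one_mul, Matrix.smul_apply, smul_eq_mul, Units.val_inv_eq_inv_val, inv_mul_eq_div]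
    fin_cases i <;> fin_cases j
    · simpa [qEntry, s] using h00
    · simpa [qEntry, s] using h01
    · simpa [qEntry, s] using h10
    · simp [s, h0]

theorem v_le_one_of_mem_lev {n : ℕ} {x : F} (hx : v x ≤ lev n) : v x ≤ 1 :=
  hx.trans (lev_le_one n)

theorem v_one_add_eq {n : ℕ} (hn : 1 ≤ n) {x : F} (hx : v x ≤ lev n) : v (1 + x) = 1 := by
  rw [v.map_add_eq_of_lt_left (by rw [map_one]; exact lt_of_le_of_lt hx (lev_lt_one hn)), map_one]

/-- The quotient of the upper right entry is additive modulo the square of the level. -/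
theorem v_qEntry_mul_sub_le {n : ℕ} (hn : 1 ≤ n) {g h : GL (Fin 2) F} (hg : g ∈ congZ v n)
    (hh : h ∈ congZ v n) :
    v (qEntry (g * h) 0 1 - (qEntry g 0 1 + qEntry h 0 1)) ≤ lev (n + n) := by
  obtain ⟨g0, gα, gβ, gγ⟩ := (mem_congZ_iff_qEntry hn).1 hg
  obtain ⟨h0, hα, hβ, hγ⟩ := (mem_congZ_iff_qEntry hn).1 hh
  set a := qEntry g 0 0
  set b := qEntry g 0 1
  set c := qEntry g 1 0
  set b' := qEntry h 0 1
  have hd : v (1 + c * b') = 1 := v_one_add_eq hn (by
    rw [map_mul]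
    exact (mul_le_mul' gγ hβ).trans (mul_le_of_le_one_right' (lev_le_one n)))
  have hd0 : 1 + c * b' ≠ 0 := fun h => by rw [h, map_zero] at hd; exact zero_ne_one hd
  have e : qEntry (g * h) 0 1 = (a * b' + b) / (1 + c * b') := by
    simp only [qEntry, a, b, c, b', Units.val_mul, Matrix.mul_apply, Fin.sum_univ_two]
    field_simp
    ring
  rw [e, div_sub' hd0, map_div₀, hd, div_one,
    show a * b' + b - (1 + c * b') * (b + b') = (a - 1) * b' - c * b' * (b + b') by ring,
    ← lev_mul]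
  refine v.map_sub_le ?_ ?_
  · rw [map_mul]; exact mul_le_mul' gα hβ
  · rw [map_mul, map_mul]
    exact (mul_le_mul' (mul_le_mul' gγ hβ) ((v.map_add _ _).trans
      (max_le (v_le_one_of_mem_lev gβ) (v_le_one_of_mem_lev hβ)))).trans_eq (by rw [mul_one])

/-- Conjugation by an integral unipotent. -/
theorem qEntry_conj_unip {n k : ℕ} (hn : 1 ≤ n) {g : GL (Fin 2) F} (hg : g ∈ congZ v n) {b : F}
    (hb : v b ≤ lev k) :
    unipHom F (-b) * g * unipHom F b ∈ congZ v n ∧
      v (qEntry (unipHom F (-b) * g * unipHom F b) 0 1 - qEntry g 0 1) ≤ lev (k + n) := by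
  obtain ⟨g0, gα, gβ, gγ⟩ := (mem_congZ_iff_qEntry hn).1 hg
  set G := unipHom F (-b) * g * unipHom F b
  set a := qEntry g 0 0
  set β := qEntry g 0 1
  set c := qEntry g 1 0
  have hb1 : v b ≤ 1 := hb.trans (lev_le_one k)
  have hcb : v (c * b) ≤ lev n := by
    rw [map_mul]; exact (mul_le_mul' gγ hb1).trans_eq (mul_one _)
  have hd : v (1 + c * b) = 1 := v_one_add_eq hn hcb
  have hd0 : 1 + c * b ≠ 0 := fun h => by rw [h, map_zero] at hd; exact zero_ne_one hd
  set g11 := (g : Matrix (Fin 2) (Fin 2) F) 1 1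
  have g0' : (g : Matrix (Fin 2) (Fin 2) F) 1 1 ≠ 0 := g0
  have hG : (G : Matrix (Fin 2) (Fin 2) F) =
      !![g11 * (a - b * c), g11 * ((a - b * c) * b + β - b);
         g11 * c, g11 * (1 + c * b)] := by
    ext i j
    fin_cases i <;> fin_cases j <;>
      simp [G, a, β, c, g11, qEntry, coe_unipHom, Matrix.mul_apply, Matrix.vecMul, dotProduct,
          Fin.sum_univ_two] <;>
      field_simp [g0'] <;> ring
  have e11 : (G : Matrix (Fin 2) (Fin 2) F) 1 1 ≠ 0 := by
    rw [hG]; simpa using mul_ne_zero g0 hd0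
  have key : v (qEntry G 0 1 - β) ≤ lev (k + n) := by
    rw [qEntry, hG]
    simp only [Matrix.cons_val', Matrix.cons_val_zero, Matrix.cons_val_one, Matrix.of_apply,
      Matrix.cons_val_fin_one]
    rw [mul_div_mul_left _ _ g0, div_sub' hd0, map_div₀, hd, div_one,
      show (a - b * c) * b + β - b - (1 + c * b) * β = b * ((a - 1) - b * c - β * c) by ring,
      map_mul, ← lev_mul]
    refine mul_le_mul' hb (v.map_sub_le (v.map_sub_le gα ?_) ?_)
    · rw [mul_comm]; exact hcb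
    · rw [map_mul]
      exact (mul_le_mul' (v_le_one_of_mem_lev gβ) gγ).trans_eq (one_mul _)
  refine ⟨(mem_congZ_iff_qEntry hn).2 ⟨e11, ?_, ?_, ?_⟩, key⟩
  · rw [qEntry, hG]
    simp only [Matrix.cons_val', Matrix.cons_val_zero, Matrix.cons_val_one, Matrix.of_apply,
      Matrix.cons_val_fin_one]
    rw [mul_div_mul_left _ _ g0, div_sub_one hd0, map_div₀, hd, div_one,
      show a - b * c - (1 + c * b) = (a - 1) - (c * b + c * b) by ring]
    exact v.map_sub_le gα (v.map_add_le hcb hcb)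
  · rw [show qEntry G 0 1 = (qEntry G 0 1 - β) + β by ring]
    exact v.map_add_le (key.trans (lev_le (Nat.le_add_left n k))) gβ
  · rw [qEntry, hG]
    simp only [Matrix.cons_val', Matrix.cons_val_zero, Matrix.cons_val_one, Matrix.of_apply,
      Matrix.cons_val_fin_one]
    rw [mul_div_mul_left _ _ g0, map_div₀, hd, div_one]
    exact gγ

/-- The part of an element with vanishing upper right entry. -/
theorem qEntry_lower {n : ℕ} (hn : 1 ≤ n) {g : GL (Fin 2) F} (hg : g ∈ congZ v n) :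
    unipHom F (-qEntry g 0 1) * g ∈ congZ v n ∧
      ((unipHom F (-qEntry g 0 1) * g : GL (Fin 2) F) : Matrix (Fin 2) (Fin 2) F) 0 1 = 0 := by
  obtain ⟨g0, gα, gβ, gγ⟩ := (mem_congZ_iff_qEntry hn).1 hg
  set β := qEntry g 0 1 with hβ
  have hu : unipHom F (-β) ∈ congZ v n := by
    refine (mem_congZ_iff_qEntry hn).2 ⟨?_, ?_, ?_, ?_⟩ <;>
      simp [qEntry, coe_unipHom, gβ]
  refine ⟨mul_mem hu hg, ?_⟩
  simp [hβ, qEntry, coe_unipHom, Matrix.mul_apply, Fin.sum_univ_two, g0]

/-- Torus elements near one. -/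
theorem torusGL_mem_congZ {n : ℕ} (hn : 1 ≤ n) {a : Fˣ} (ha : v ((a : F) - 1) ≤ lev n) :
    torusGL a ∈ congZ v n := by
  refine (mem_congZ_iff_qEntry hn).2 ⟨?_, ?_, ?_, ?_⟩ <;> simp [qEntry, coe_torusGL, ha]

/-- Conjugation by a torus element scales the off-diagonal quotients. -/
theorem torus_conj_mem {m n : ℕ} (hn : 1 ≤ n) (hm : 1 ≤ m) {g : GL (Fin 2) F} (hg : g ∈ congZ v m)
    (δ : Fˣ) (hmn : n ≤ m) (h01 : v (qEntry g 0 1) * (v δ)⁻¹ ≤ lev n)
    (h10 : v (qEntry g 1 0) * v δ ≤ lev n) :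
    (torusGL δ)⁻¹ * g * torusGL δ ∈ congZ v n := by
  obtain ⟨g0, gα, -, -⟩ := (mem_congZ_iff_qEntry hm).1 hg
  have e : ((torusGL δ)⁻¹ * g * torusGL δ : GL (Fin 2) F) =
      torusGL δ⁻¹ * g * torusGL δ := by
    rw [inv_eq_of_mul_eq_one_left]
    rw [← ResidualThree.torusGL_mul, inv_mul_cancel, ResidualThree.torusGL_one]
  have hG : ((torusGL δ⁻¹ * g * torusGL δ : GL (Fin 2) F) : Matrix (Fin 2) (Fin 2) F) =
      !![(g : Matrix (Fin 2) (Fin 2) F) 0 0, (g : Matrix (Fin 2) (Fin 2) F) 0 1 * (δ : F)⁻¹;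
         (g : Matrix (Fin 2) (Fin 2) F) 1 0 * δ, (g : Matrix (Fin 2) (Fin 2) F) 1 1] := by
    ext i j
    fin_cases i <;> fin_cases j <;>
      simp [coe_torusGL, Matrix.mul_apply, Matrix.vecMul, dotProduct, Fin.sum_univ_two,
        mul_comm]
  rw [e]
  refine (mem_congZ_iff_qEntry hn).2 ⟨?_, ?_, ?_, ?_⟩
  · rw [hG]; simpa using g0
  · refine le_trans (le_of_eq ?_) (gα.trans (lev_le hmn))
    rw [qEntry, qEntry, hG]; simp
  · refine le_trans (le_of_eq ?_) h01
    rw [qEntry, qEntry, hG]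
    simp [div_eq_mul_inv, mul_comm, mul_left_comm, mul_assoc]
  · refine le_trans (le_of_eq ?_) h10
    rw [qEntry, qEntry, hG]
    simp [div_eq_mul_inv, mul_comm, mul_assoc]

end Fermat.Agent.WeightOneLift
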