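import Fermat.Agent.WeightOneLift.TestCharacters.Params

/-!
# The forms transforming by the test character and their coefficients on the torus domain
-/

noncomputable section

open IsDedekindDomain NumberField
open scoped WithZero

namespace Fermat.Agent.WeightOneLift

open Fermat.Agent.ResidualThree
open Fermat.Agent.ResidualThree.Orbital (comapPlace localAut localAutGL)
open Fermat.Agent.ResidualThree.Tree (lev lev_le lev_mul lev_le_one)

variable {F : Type} [Field F] [NumberField F] {f : F ≃+* F} {S : Finset (FPlace F)}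
  (P : CharParams f S) (a : FPlace F → ℂ)

/-- The element supported at one place of `S`. -/
def placeSingle {w : FPlace F} (hw : w ∈ S) (g : GLv w) : placeSubgroup S :=
  ⟨single w g, fun v hv => single_apply_ne (fun e => hv (by rw [e]; exact hw)) g⟩

namespace CharParams

/-- The deep level. -/
def level : Level F := levelOn S P.E

/-- The functions transforming by the inverse of the test character. -/
def charForms : Submodule ℂ (Gf F → Hyp F → ℂ) where
  carrier := {φ | ∀ z ∈ P.supp, P.charS z • placeTr S z φ = φ}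
  add_mem' {φ ψ} hφ hψ z hz := by rw [map_add, smul_add, hφ z hz, hψ z hz]
  zero_mem' z _ := by rw [map_zero, smul_zero]
  smul_mem' c φ hφ z hz := by rw [map_smul, smul_comm, hφ z hz]

theorem placeSingle_mem_supp {w : FPlace F} (hw : w ∈ S) {g : GLv w}
    (hg : g ∈ congSubgroup w (P.m w)) : placeSingle hw g ∈ P.supp := by
  refine mem_levelAt_levelOn.2 fun v _ => ?_
  by_cases h : v = w
  · subst h; simpa [placeSingle, single_apply_same] using hg
  · simp [placeSingle, single_apply_ne h]

theorem charS_placeSingle {w : FPlace F} (hw : w ∈ S) (g : GLv w) :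
    P.charS (placeSingle hw g) = charFn w P.ν g := by
  rw [charS, Finset.prod_eq_single_of_mem w hw fun v _ h => ?_]
  · simp [placeSingle, single_apply_same]
  · simp [placeSingle, single_apply_ne h, charFn_one]

/-- A unipotent of depth `j` lies in the congruence subgroup of level `j`. -/
theorem unip_mem_cong {w : FPlace F} {j : ℕ} (hj : 1 ≤ j) {b : w.adicCompletion F}
    (hb : valv w b ≤ lev j) : unipHom _ b ∈ congSubgroup w j :=
  (mem_congZ_iff_qEntry (v := valv w) hj).2
    ⟨by simp [coe_unipHom], by simp [qEntry, coe_unipHom], by simpa [qEntry, coe_unipHom] using hb,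
      by simp [qEntry, coe_unipHom]⟩

variable {P a}

/-- The coefficient at a torus point. -/
def coef (φ : Gf F → Hyp F → ℂ) (t : Idl F) : ℂ :=
  fourierCoeff φ 1 (torusPt t) fun _ => H3.base

variable [IsTotallyComplex F] {φ : Gf F → Hyp F → ℂ}

/-- An integral unipotent at `w` multiplies the coefficient. -/
theorem coef_rightTr_unip {U : Level F} (hφ : IsAutomorphic U φ) (w : FPlace F)
    (b : w.adicCompletion F) (t : Idl F) :
    coef (rightTr (single w (unipHom _ b)) φ) t =
      psiAt w (-((t.1 w : w.adicCompletion F) * b)) * coef φ t :=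
  ResidualThree.kir_rightTr_unip hφ w b t

variable (hφ : φ ∈ levelForms S a P.level ⊓ P.charForms)
include hφ

/-- The coefficient vanishes unless the unipotent characters agree. -/
theorem coef_unip_eq {w : FPlace F} (hw : w ∈ S) {b : w.adicCompletion F}
    (hb : valv w b ≤ lev (P.m w)) (t : Idl F) :
    psiAt w ((algebraMap F (w.adicCompletion F) P.ν - (t.1 w : w.adicCompletion F)) * b) *
      coef φ t = coef φ t := by
  have h := hφ.2 _ (P.placeSingle_mem_supp hw (unip_mem_cong (P.one_le_m hw) hb))
  rw [charS_placeSingle] at h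
  conv_rhs => rw [← h]
  rw [show coef (charFn w P.ν (unipHom _ b) • placeTr S (placeSingle hw (unipHom _ b)) φ) t =
      charFn w P.ν (unipHom _ b) * coef (rightTr (single w (unipHom _ b)) φ) t from
      fourierCoeff_smul (hφ.1.2.rightTr _) _ _ _ _,
    coef_rightTr_unip hφ.1.2, ← mul_assoc, charFn, qEntry, coe_unipHom]
  simp only [Matrix.cons_val', Matrix.cons_val_zero, Matrix.cons_val_one, Matrix.of_apply,
    Matrix.cons_val_fin_one, div_one]
  rw [← psiAt_add]
  congr 2
  ring

/-- The support of the coefficient. -/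
theorem coef_support {t : Idl F} (h : coef φ t ≠ 0) {w : FPlace F} (hw : w ∈ S) :
    valv w ((t.1 w : w.adicCompletion F) * (algebraMap F (w.adicCompletion F) P.ν)⁻¹ - 1) ≤
      lev (P.k w) := by
  set N := algebraMap F (w.adicCompletion F) P.ν
  have hN : valv w N = WithZero.exp (P.s w : ℤ) := P.valv_ν hw
  have hN0 : N ≠ 0 := fun e => by rw [e, map_zero] at hN; exact WithZero.exp_ne_zero hN.symm
  set d := N - (t.1 w : w.adicCompletion F)
  suffices hd : valv w d ≤ WithZero.exp (cond w + P.m w) by
    rw [show (t.1 w : w.adicCompletion F) * N⁻¹ - 1 = -(d * N⁻¹) by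
      simp only [d]; field_simp; ring, Valuation.map_neg, map_mul, map_inv₀, hN]
    refine (mul_le_mul' hd le_rfl).trans (le_of_eq ?_)
    rw [lev, ← WithZero.exp_neg, ← WithZero.exp_add]
    have := P.k_eq w hw
    congr 1; omega
  by_contra hlt
  rw [not_le] at hlt
  have hd0 : d ≠ 0 := fun e => by rw [e, map_zero] at hlt; exact not_lt_zero hlt
  obtain ⟨z₀, hz₀, hne⟩ := exists_psiAt_ne_one_of_cond w
  have hb : valv w (z₀ * d⁻¹) ≤ lev (P.m w) := by
    rw [map_mul, map_inv₀, hz₀, ← WithZero.exp_log ((valv w).ne_zero_iff.2 hd0), lev,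
      ← WithZero.exp_neg, ← WithZero.exp_add, WithZero.exp_le_exp]
    rw [← WithZero.exp_log ((valv w).ne_zero_iff.2 hd0), WithZero.exp_lt_exp] at hlt
    omega
  have := coef_unip_eq hφ hw hb t
  rw [show d * (z₀ * d⁻¹) = z₀ by field_simp] at this
  exact hne (mul_left_eq_self₀.1 this |>.resolve_right h)

/-- Units away from `S` and units near one at `S` do not change the coefficient. -/
theorem coef_mul_unit (t u : Idl F) (hout : ∀ v ∉ S, valv v (u.1 v : v.adicCompletion F) = 1)
    (hin : ∀ v ∈ S, valv v ((u.1 v : v.adicCompletion F) - 1) ≤ lev (P.m v)) :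
    coef φ (t * u) = coef φ t := by
  set z := resPlaces S (torusPt u)
  have hcomp : ∀ v ∈ S, ((z : Gf F) : ∀ v, GLv v) v = torusGL (u.1 v) := fun v hv =>
    resPlaces_apply_mem _ hv
  have hz : z ∈ P.supp := mem_levelAt_levelOn.2 fun v hv => by
    rw [hcomp v hv]
    exact torusGL_mem_congZ (P.one_le_m hv) (hin v hv)
  have hchar : P.charS z = 1 := Finset.prod_eq_one fun v hv => by
    rw [hcomp v hv, charFn, qEntry, coe_torusGL]
    simp [psiAt_zero]
  have hfix : rightTr (z : Gf F) φ = φ := by
    have := hφ.2 z hz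
    rwa [hchar, one_smul] at this
  set j : Gf F := (z : Gf F)⁻¹ * torusPt u
  have hj : ∀ v, (j : ∀ v, GLv v) v ∈ P.level.J v := fun v => by
    by_cases hv : v ∈ S
    · rw [resPlaces_rest _ hv]; exact one_mem _
    · rw [resPlaces_rest_ne _ hv, level, levelOn_not hv]
      exact Subgroup.subset_closure (Or.inl (isIntGL_torusGL v (hout v hv)))
  rw [coef, map_mul, show torusPt t * torusPt u = torusPt t * (z : Gf F) * j by
    simp only [j, mul_assoc, mul_inv_cancel_left], fourierCoeff_right hφ.1.2 _ _ _ hj,
    ← fourierCoeff_rightTr hφ.1.2, hfix]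
  rfl

/-- A unipotent of depth `k` preserves the space. -/
theorem rightTr_unip_mem {w : FPlace F} (hw : w ∈ S) {b : w.adicCompletion F}
    (hb : valv w b ≤ lev (P.k w)) :
    rightTr (single w (unipHom _ b)) φ ∈ levelForms S a P.level ⊓ P.charForms := by
  set x := placeSingle hw (unipHom _ b)
  have hb1 : valv w b ≤ 1 := hb.trans (lev_le_one _)
  have hxw : ((x : Gf F) : ∀ v, GLv v) w = unipHom _ b := single_apply_same w _
  have hinv : (unipHom (w.adicCompletion F) b)⁻¹ = unipHom _ (-b) :=
    inv_eq_of_mul_eq_one_left (by rw [← unipHom_add, neg_add_cancel, unipHom_zero])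
  refine ⟨⟨hφ.1.1.rightTr fun v hv => x.2 v (by simpa using hv),
    (hφ.1.2.rightTr (x : Gf F)).mono fun v => ?_⟩, fun z hz => ?_⟩
  · intro g hg
    refine ⟨P.level.le_max v hg, Subgroup.mem_comap.2 ?_⟩
    simp only [MulEquiv.toMonoidHom_eq_coe, MonoidHom.coe_coe, MulAut.conj_apply, inv_inv]
    by_cases hv : v = w
    · subst hv
      rw [level, levelOn_mem hw] at hg ⊢
      show (((x : Gf F) : ∀ u, GLv u) v)⁻¹ * g * ((x : Gf F) : ∀ u, GLv u) v ∈ _
      rw [hxw, hinv]
      exact (qEntry_conj_unip ((P.one_le_m hw).trans (P.m_le_E _ hw)) hg hb).1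
    · rw [show ((x : Gf F) : ∀ u, GLv u) v = 1 from single_apply_ne hv _, inv_one, one_mul, mul_one]
      exact hg
  · have hz' : x⁻¹ * z * x ∈ P.supp := mem_levelAt_levelOn.2 fun v hv => by
      show (((x : Gf F) : ∀ u, GLv u) v)⁻¹ * ((z : Gf F) : ∀ u, GLv u) v *
        ((x : Gf F) : ∀ u, GLv u) v ∈ _
      by_cases h : v = w
      · subst h
        rw [hxw, hinv]
        exact (qEntry_conj_unip (P.one_le_m hv) (mem_levelAt_levelOn.1 hz v hv) hb).1
      · rw [show ((x : Gf F) : ∀ u, GLv u) v = 1 from single_apply_ne h _, inv_one, one_mul,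
          mul_one]
        exact mem_levelAt_levelOn.1 hz v hv
    have hc : P.charS (x⁻¹ * z * x) = P.charS z := Finset.prod_congr rfl fun v hv => by
      show charFn v P.ν ((((x : Gf F) : ∀ u, GLv u) v)⁻¹ * ((z : Gf F) : ∀ u, GLv u) v *
        ((x : Gf F) : ∀ u, GLv u) v) = _
      by_cases h : v = w
      · subst h
        rw [hxw, hinv, charFn, charFn]
        refine psiAt_congr v ?_
        rw [← mul_sub]
        refine P.ν_mul_le hv ?_
          (qEntry_conj_unip (P.one_le_m hv) (mem_levelAt_levelOn.1 hz v hv) hb).2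
        have := P.k_eq v hv
        push_cast
        omega
      · rw [show ((x : Gf F) : ∀ u, GLv u) v = 1 from single_apply_ne h _, inv_one, one_mul,
          mul_one]
    have h := hφ.2 _ hz'
    rw [hc] at h
    show P.charS z • placeTr S z (placeTr S x φ) = placeTr S x φ
    conv_rhs => rw [← h]
    rw [map_smul, ← Module.End.mul_apply, ← map_mul, ← Module.End.mul_apply, ← map_mul, ← mul_assoc,
      mul_inv_cancel_left x z]

end CharParams

end Fermat.Agent.WeightOneLift
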