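import Fermat.Agent.ResidualThree.CubicDescent.BadLevels
import Fermat.Agent.WeightOneLift.TestCharacters.Space

/-!
# The test operator and the automorphism on the forms transforming by the test character
-/

noncomputable section

open IsDedekindDomain NumberField
open scoped WithZero

namespace Fermat.Agent.WeightOneLift

open Fermat.Agent.ResidualThree
open Fermat.Agent.ResidualThree.Orbital (comapPlace localAut localAutGL autGf IsStableLevel)
open Fermat.Agent.ResidualThree.Tree (lev)

variable {F : Type} [Field F] [NumberField F] {f : F ≃+* F} {S : Finset (FPlace F)}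
  {P : CharParams f S} {a : FPlace F → ℂ}

namespace CharParams

section Test

variable (hh : IsHeckeFn (levelAt P.level S) P.testFn)
include hh

/-- The image of the test operator transforms by the character. -/
theorem heckeLin_mem_charForms {φ : Gf F → Hyp F → ℂ}
    (hφ : ∀ j ∈ levelAt P.level S, placeTr S j φ = φ) : heckeLin hh φ ∈ P.charForms := by
  intro z hz
  rw [heckeLin, LinearMap.sum_apply, map_sum, Finset.smul_sum]
  have hsmul : ∀ (q : placeSubgroup S ⧸ levelAt P.level S) (i : placeSubgroup S),
      i • q = ((i * q.out : placeSubgroup S) : placeSubgroup S ⧸ levelAt P.level S) :=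
    fun q i => by
      conv_lhs => rw [← QuotientGroup.out_eq' q]
      rfl
  have key : ∀ q : placeSubgroup S ⧸ levelAt P.level S, ∀ i ∈ P.supp,
      P.charS i • placeTr S i (P.testFn q.out • placeTr S q.out φ) =
        P.testFn (i • q).out • placeTr S (i • q).out φ := by
    intro q i hi
    obtain ⟨e, he⟩ := QuotientGroup.mk_out_eq_mul (levelAt P.level S) (i * q.out)
    have h1 := hh.bi 1 (one_mem _) e e.2 (i * q.out)
    rw [one_mul] at h1
    rw [hsmul, he, h1, P.testFn_mul_left hi, map_smul, smul_smul, map_mul, map_mul,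
      Module.End.mul_apply, Module.End.mul_apply, hφ e e.2]
  have hmem : ∀ q ∈ hh.fin.toFinset, ∀ i ∈ P.supp, i • q ∈ hh.fin.toFinset := by
    intro q hq i hi
    rw [Set.Finite.mem_toFinset, Set.mem_ofPred_eq] at hq ⊢
    rw [hsmul, hh.apply_out, P.testFn_mul_left hi]
    exact mul_ne_zero (P.charS_ne_zero hi) hq
  exact Finset.sum_bij' (fun q _ => z • q) (fun q _ => z⁻¹ • q) (fun q hq => hmem q hq z hz)
    (fun q hq => hmem q hq _ (inv_mem hz)) (fun q _ => inv_smul_smul z q)
    (fun q _ => smul_inv_smul z q) (fun q _ => key q z hz)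

/-- The test function is supported on `supp`. -/
theorem out_mem_supp {q : placeSubgroup S ⧸ levelAt P.level S} (hq : q ∈ hh.fin.toFinset) :
    q.out ∈ P.supp := by
  classical
  rw [Set.Finite.mem_toFinset, Set.mem_ofPred_eq, testFn] at hq
  by_contra h
  exact hq (if_neg h)

theorem card_pos : 0 < hh.fin.toFinset.card := by
  refine Finset.card_pos.2 ⟨((1 : placeSubgroup S) : placeSubgroup S ⧸ levelAt P.level S), ?_⟩
  rw [Set.Finite.mem_toFinset, Set.mem_ofPred_eq, hh.apply_out, P.testFn_of_mem (one_mem _),
    charS_one]
  exact one_ne_zero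

/-- On the forms of the character the test operator is a multiplication. -/
theorem heckeLin_eq_smul {φ : Gf F → Hyp F → ℂ} (hφ : φ ∈ P.charForms) :
    heckeLin hh φ = (hh.fin.toFinset.card : ℂ) • φ := by
  rw [heckeLin, LinearMap.sum_apply, Finset.sum_congr rfl (fun q hq => ?_ :
    ∀ q ∈ hh.fin.toFinset, (P.testFn q.out • placeTr S q.out) φ = φ), Finset.sum_const,
    Nat.cast_smul_eq_nsmul]
  rw [LinearMap.smul_apply, P.testFn_of_mem (out_mem_supp hh hq)]
  exact hφ _ (out_mem_supp hh hq)

end Test

/-- The element moved by the automorphism. -/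
def autPlace (P : CharParams f S) (z : placeSubgroup S) : placeSubgroup S :=
  ⟨autGf f (z : Gf F), fun w hw => by
    show localAutGL f w (((z : Gf F) : ∀ v, GLv v) (comapPlace f w)) = 1
    rw [z.2 _ fun h => hw ((P.stable w).1 h), map_one]⟩

theorem autPlace_mem {z : placeSubgroup S} (hz : z ∈ P.supp) : P.autPlace z ∈ P.supp :=
  mem_levelAt_levelOn.2 fun w hw => by
    have h := mem_levelAt_levelOn.1 hz _ ((P.stable w).2 hw)
    rw [P.m_comap] at h
    exact localAutGL_mem_cong f w h

/-- The product character is invariant under the automorphism. -/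
theorem charS_autPlace (z : placeSubgroup S) : P.charS (P.autPlace z) = P.charS z := by
  refine Finset.prod_bij (fun w _ => comapPlace f w) (fun w hw => (P.stable w).2 hw)
    (fun w _ w' _ h => Orbital.comapPlace_injective f h) (fun v hv => ?_) (fun w _ => ?_)
  · obtain ⟨w, rfl⟩ := Orbital.comapPlace_surjective f v
    exact ⟨w, (P.stable w).1 hv, rfl⟩
  · exact P.charFn_equivariant w _

theorem isStableLevel_level : IsStableLevel f P.level := fun w g hg => by
  by_cases hw : w ∈ S
  · rw [level, levelOn_mem ((P.stable w).2 hw), P.E_comap] at hg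
    rw [level, levelOn_mem hw]
    exact localAutGL_mem_cong f w hg
  · rw [level, levelOn_not (mt (P.stable w).1 hw)] at hg
    rw [level, levelOn_not hw]
    exact Orbital.localAutGL_mem_max f w hg

/-- The forms of the character are stable under the automorphism. -/
theorem sigmaFn_mem_charForms {φ : Gf F → Hyp F → ℂ} (hφ : φ ∈ P.charForms) :
    sigmaFn f φ ∈ P.charForms := fun z hz => by
  have h := hφ _ (autPlace_mem hz)
  rw [charS_autPlace] at h
  show P.charS z • rightTr (z : Gf F) (sigmaFn f φ) = sigmaFn f φ
  rw [← sigmaFn_rightTr, ← map_smul]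
  exact congrArg _ h

variable [IsTotallyComplex F]

/-- The automorphism moves the argument of the coefficient. -/
theorem coef_sigmaFn {φ : Gf F → Hyp F → ℂ} (hφ : IsAutomorphic P.level φ) (t : Idl F) :
    coef (sigmaFn f φ) t = coef φ (autIdl f t) := by
  rw [coef, fourierCoeff_sigmaFn f P.isStableLevel_level hφ, map_one, autGf_torusPt, autHyp_base]
  rfl

end CharParams

end Fermat.Agent.WeightOneLift
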