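import Fermat.Agent.ResidualThree.CubicDescent.SigmaOp

/-!
# Equivariance of the standard character and of the Fourier coefficients under field automorphisms
-/

noncomputable section

open IsDedekindDomain NumberField MeasureTheory
open scoped WithZero ComplexConjugate

namespace Fermat.Agent.WeightOneLift

open Fermat.Agent.ResidualThree
open Fermat.Agent.ResidualThree.Orbital (comapPlace autGf autHyp localAutGL localAut coord conjH3
    IsStableLevel)

variable {L : Type} [Field L] [NumberField L] (f : L ≃+* L)

theorem trace_aut (x : L) : Algebra.trace ℚ L (f x) = Algebra.trace ℚ L x :=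
  Algebra.trace_eq_of_algEquiv (AlgEquiv.ofRingEquiv (f := f) fun q => by simp) x

theorem traceExp_aut (x : L) : traceExp (f x) = traceExp x := by rw [traceExp, traceExp, trace_aut]

/-- The automorphism on the finite adeles. -/
def autAdele : Af L →+ Af L where
  toFun z := ⟨fun w => localAut f w (z.1 (comapPlace f w)), mem_Af.2 <|
    ((Orbital.comapPlace_injective f).tendsto_cofinite.eventually (mem_Af.1 z.2)).mono
      fun w hw => by rwa [Orbital.valv_localAut]⟩
  map_zero' := Subtype.ext (funext fun w => map_zero _)
  map_add' a b := Subtype.ext (funext fun w => map_add _ _ _)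

/-- The standard character is invariant under automorphisms of the field. -/
theorem psiFin_autAdele (z : Af L) : psiFin (autAdele f z) = psiFin z := by
  rw [psiFin_eq (z := autAdele f z) (β := f (approx z)) fun w => ?_, traceExp_aut]
  · rfl
  · show valv w (_ - localAut f w (z.1 (comapPlace f w))) ≤ 1
    rw [← Orbital.localAut_coe, ← map_sub, Orbital.valv_localAut]
    exact valv_approx z _

theorem autAdele_single (w : FPlace L) (z : (comapPlace f w).adicCompletion L) :
    autAdele f (singleAdele (comapPlace f w) z) = singleAdele w (localAut f w z) := by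
  classical
  refine Subtype.ext (funext fun u => ?_)
  show localAut f u (Pi.single (M := fun u : FPlace L => u.adicCompletion L) (comapPlace f w) z
    (comapPlace f u)) = Pi.single (M := fun u : FPlace L => u.adicCompletion L) w (localAut f w z) u
  by_cases h : u = w
  · subst h; rw [Pi.single_eq_same, Pi.single_eq_same]
  · rw [Pi.single_eq_of_ne h,
      Pi.single_eq_of_ne (fun e => h (Orbital.comapPlace_injective f e)), map_zero]

theorem psiAt_localAut (w : FPlace L) (z : (comapPlace f w).adicCompletion L) :
    psiAt w (localAut f w z) = psiAt (comapPlace f w) z := by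
  rw [psiAt, ← autAdele_single, psiFin_autAdele]; rfl

theorem cond_le_comapPlace (w : FPlace L) : cond w ≤ cond (comapPlace f w) := by
  obtain ⟨z₀, hz, hne⟩ := exists_psiAt_ne_one_of_cond (comapPlace f w)
  by_contra h
  refine hne ?_
  rw [← psiAt_localAut]
  refine psiAt_eq_one w ?_
  rw [Orbital.valv_localAut, hz, WithZero.exp_le_exp]
  omega

omit [NumberField L] in
theorem comapPlace_symm (w : FPlace L) : comapPlace f.symm (comapPlace f w) = w :=
  HeightOneSpectrum.ext (Ideal.ext fun x => by
    show RingOfIntegers.mapRingEquiv f (RingOfIntegers.mapRingEquiv f.symm x) ∈ w.asIdeal ↔ _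
    have e : RingOfIntegers.mapRingEquiv f (RingOfIntegers.mapRingEquiv f.symm x) = x :=
      RingOfIntegers.ext (f.apply_symm_apply (x : L))
    rw [e])

/-- Conjugate places have the same conductor. -/
theorem cond_comapPlace (w : FPlace L) : cond (comapPlace f w) = cond w :=
  le_antisymm ((cond_le_comapPlace f.symm (comapPlace f w)).trans_eq (by rw [comapPlace_symm]))
    (cond_le_comapPlace f w)

/-- The automorphism on the finite ideles. -/
def autIdl : Idl L →* Idl L where
  toFun t := ⟨fun w => Units.map (localAut f w).toMonoidHom (t.1 (comapPlace f w)),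
    show ∀ᶠ w : FPlace L in Filter.cofinite, valv w (localAut f w _) = 1 from
      ((Orbital.comapPlace_injective f).tendsto_cofinite.eventually t.2).mono
        fun w hw => by rwa [Orbital.valv_localAut]⟩
  map_one' := Subtype.ext (funext fun w => map_one _)
  map_mul' a b := Subtype.ext (funext fun w => map_mul _ _ _)

theorem coe_autIdl (t : Idl L) (w : FPlace L) :
    ((autIdl f t).1 w : w.adicCompletion L) = localAut f w (t.1 (comapPlace f w)) := rfl

theorem valv_autIdl (t : Idl L) (w : FPlace L) :
    valv w ((autIdl f t).1 w : w.adicCompletion L) =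
      valv (comapPlace f w) (t.1 (comapPlace f w) : (comapPlace f w).adicCompletion L) := by
  rw [coe_autIdl, Orbital.valv_localAut]

/-- The automorphism carries a torus point to the torus point of the conjugate idele. -/
theorem autGf_torusPt (t : Idl L) : autGf f (torusPt t) = torusPt (autIdl f t) := by
  refine Subtype.ext (funext fun w => Units.ext ?_)
  show ((localAutGL f w (torusGL (t.1 (comapPlace f w))) : GLv w) :
    Matrix (Fin 2) (Fin 2) (w.adicCompletion L)) = (torusGL ((autIdl f t).1 w) : GLv w)
  rw [coe_torusGL]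
  show (localAut f w).mapMatrix (torusGL (t.1 (comapPlace f w)) :
    Matrix (Fin 2) (Fin 2) ((comapPlace f w).adicCompletion L)) = _
  rw [coe_torusGL, RingHom.mapMatrix_apply]
  ext i j
  fin_cases i <;> fin_cases j <;> simp [coe_autIdl]

omit [NumberField L] in
/-- The automorphism fixes the base point. -/
theorem autHyp_base : autHyp f (fun _ : InfinitePlace L => H3.base) = fun _ => H3.base := by
  classical
  funext w
  show coord _ _ = _
  rw [coord]
  split_ifs
  · rfl
  · exact H3.ext (by simp [conjH3, H3.base]) rfl

variable [IsTotallyComplex L]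

/-- The coefficients of the composite with the automorphism. -/
theorem fourierCoeff_sigmaFn {U : Level L} (hU : IsStableLevel f U) {φ : Gf L → Hyp L → ℂ}
    (hφ : IsAutomorphic U φ) (ν : L) (x : Gf L) (p : Hyp L) :
    fourierCoeff (sigmaFn f φ) ν x p = fourierCoeff φ (f ν) (autGf f x) (autHyp f p) := by
  classical
  obtain ⟨m, hm⟩ := (isAutomorphic_sigmaFn f hU hφ).exists_commonPeriod ν x
  obtain ⟨k, hk⟩ := hφ.exists_commonPeriod (f ν) (autGf f x)
  have hmk : HasCommonPeriod (sigmaFn f φ) ν x (m * k) :=
    ⟨Nat.mul_pos hm.1 hk.1, hm.2.1.mul k, hm.2.2.mul k⟩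
  have hkm : HasCommonPeriod φ (f ν) (autGf f x) (m * k) := by
    rw [mul_comm]; exact ⟨Nat.mul_pos hk.1 hm.1, hk.2.1.mul m, hk.2.2.mul m⟩
  rw [fourierCoeff_eq ((isAutomorphic_sigmaFn f hU hφ).continuous x) p hmk]
  set e := RingOfIntegers.mapRingEquiv f
  let A : Matrix (BasisIx L) (BasisIx L) ℤ := fun i j =>
    (RingOfIntegers.basis L).repr (e (RingOfIntegers.basis L j)) i
  have hA : A.det ≠ 0 := by
    have e1 : A = LinearMap.toMatrix (RingOfIntegers.basis L) (RingOfIntegers.basis L)
        (e.toAddEquiv.toIntLinearEquiv : 𝓞 L →ₗ[ℤ] 𝓞 L) :=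
      Matrix.ext fun i j => by rw [LinearMap.toMatrix_apply]; rfl
    have hu := LinearEquiv.isUnit_det (e.toAddEquiv.toIntLinearEquiv : 𝓞 L ≃ₗ[ℤ] 𝓞 L)
      (RingOfIntegers.basis L) (RingOfIntegers.basis L)
    rw [e1]
    exact hu.ne_zero
  have hcol : ∀ j, (f (RingOfIntegers.basis L j : L)) =
      ∑ i, (A i j : L) * (RingOfIntegers.basis L i : L) := fun j => by
    have h := congrArg (fun z : 𝓞 L => (z : L))
      ((RingOfIntegers.basis L).sum_repr (e (RingOfIntegers.basis L j)))
    simp only [map_sum, zsmul_eq_mul, map_mul, map_intCast] at h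
    exact h.symm
  rw [boxMean_change hkm.2.1 hkm.2.2 (hφ.continuous _) hA (ψ := φ) (y := autGf f x)
    (q := autHyp f p) (m' := m * k) fun t => ?_, ← fourierCoeff_eq (hφ.continuous _) _ hkm]
  set s := Matrix.mulVec (A.map (Int.castRingHom ℝ)) t
  have harch : archExp ν (boxPt (m * k) t) = archExp (f ν) (boxPt (m * k) s) := by
    rw [archExp, archExp, realPair_boxPt, realPair_boxPt]
    congr 3
    simp only [s, Matrix.mulVec, dotProduct, Matrix.map_apply, Int.coe_castRingHom,
      Finset.sum_mul]
    rw [Finset.sum_comm]
    refine Finset.sum_congr rfl fun j _ => ?_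
    have hmul : ∀ y : L, f (ν * (((m * k : ℕ) : L) * y)) = f ν * (((m * k : ℕ) : L) * f y) :=
      fun y => by rw [map_mul f, map_mul f, map_natCast]
    rw [← trace_aut f (ν * _), hmul, hcol j, Finset.mul_sum,
      Finset.mul_sum, map_sum, Rat.cast_sum, Finset.mul_sum]
    refine Finset.sum_congr rfl fun i _ => ?_
    rw [show f ν * ((↑(m * k) : L) * ((A i j : L) * (RingOfIntegers.basis L i : L))) =
      (A i j : ℤ) • (f ν * ((↑(m * k) : L) * (RingOfIntegers.basis L i : L))) by
      rw [zsmul_eq_mul]; ring, map_zsmul, zsmul_eq_mul]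
    push_cast
    ring
  simp only [boxFun, sigmaFn_apply]
  rw [harch]
  congr 2
  rw [show boxPt (F := L) (m * k) t = fun w => ∑ i, (t i : ℂ) *
      w.embedding (((m * k : ℕ) : L) * (RingOfIntegers.basis L i : L)) by
    funext w; simp [boxPt, map_mul],
    autHyp_boxShift]
  congr 1
  funext w
  simp only [s, boxPt, map_mul, map_natCast, hcol, map_sum, map_intCast, Matrix.mulVec, dotProduct,
    Matrix.map_apply, Int.coe_castRingHom, Complex.ofReal_sum, Complex.ofReal_mul,
    Complex.ofReal_intCast, Finset.mul_sum, Finset.sum_mul]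
  rw [Finset.sum_comm]
  exact Finset.sum_congr rfl fun i _ => Finset.sum_congr rfl fun j _ => by ring

end Fermat.Agent.WeightOneLift
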