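import Fermat.Agent.WeightOneLift.TestCharacters.CongQuot
import Fermat.Agent.WeightOneLift.TestCharacters.PsiAut
import Fermat.Agent.WeightOneLift.TestCharacters.Statement

/-!
# The test characters

At a place of `S` the character is `ψ(ν g₀₁ / g₁₁)` for a large `ν` fixed by the automorphism.
-/

noncomputable section

open IsDedekindDomain NumberField
open scoped WithZero

namespace Fermat.Agent.WeightOneLift

open Fermat.Agent.ResidualThree
open Fermat.Agent.ResidualThree.Orbital (comapPlace localAut localAutGL)
open Fermat.Agent.ResidualThree.Tree (lev lev_le lev_mul lev_le_one)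

variable {F : Type} [Field F] [NumberField F]

/-- The character `ψ(ν g₀₁ / g₁₁)`. -/
def charFn (w : FPlace F) (ν : F) (g : GLv w) : ℂ :=
  psiAt w (algebraMap F (w.adicCompletion F) ν * qEntry g 0 1)

theorem psiAt_zero (w : FPlace F) : psiAt w 0 = 1 :=
  psiAt_of_le_one w (by rw [map_zero]; exact zero_le)

theorem charFn_one (w : FPlace F) (ν : F) : charFn w ν 1 = 1 := by
  rw [charFn, qEntry, Units.val_one, Matrix.one_apply_ne (by decide), zero_div, mul_zero,
    psiAt_zero]

/-- `psiAt` depends on its argument up to the conductor. -/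
theorem psiAt_congr (w : FPlace F) {x y : w.adicCompletion F}
    (h : valv w (x - y) ≤ WithZero.exp (cond w)) : psiAt w x = psiAt w y := by
  rw [show x = (x - y) + y by ring, psiAt_add, psiAt_eq_one w h, one_mul]

theorem exp_mul_lev (s k : ℕ) :
    WithZero.exp (s : ℤ) * lev k = WithZero.exp ((s : ℤ) - k) := by
  rw [lev, ← WithZero.exp_add]; congr 1

/-- The parameters of the test characters. -/
structure CharParams (f : F ≃+* F) (S : Finset (FPlace F)) where
  /-- the scaling -/
  ν : F
  /-- the logarithm of its absolute value -/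
  s : FPlace F → ℕ
  /-- the level where the character is multiplicative -/
  n : FPlace F → ℕ
  /-- the level of the test function -/
  m : FPlace F → ℕ
  /-- the level where the character is trivial -/
  E : FPlace F → ℕ
  /-- the depth of the torus domain -/
  k : FPlace F → ℕ
  ν_ne : ν ≠ 0
  fix : f ν = ν
  stable : ∀ w, comapPlace f w ∈ S ↔ w ∈ S
  n_comap : ∀ w, n (comapPlace f w) = n w
  m_comap : ∀ w, m (comapPlace f w) = m w
  E_comap : ∀ w, E (comapPlace f w) = E w
  k_comap : ∀ w, k (comapPlace f w) = k w
  val : ∀ w ∈ S, w.valuation F ν = WithZero.exp (s w : ℤ)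
  one_le : ∀ w ∈ S, 1 ≤ n w
  n_le : ∀ w ∈ S, n w ≤ m w
  s_le : ∀ w ∈ S, s w ≤ n w + n w
  k_eq : ∀ w ∈ S, (k w : ℤ) = (s w : ℤ) - cond w - m w
  one_le_k : ∀ w ∈ S, 1 ≤ k w
  s_le_E : ∀ w ∈ S, s w ≤ E w
  m_le_E : ∀ w ∈ S, m w ≤ E w

variable {f : F ≃+* F} {S : Finset (FPlace F)} (P : CharParams f S)

namespace CharParams

theorem one_le_m {w : FPlace F} (hw : w ∈ S) : 1 ≤ P.m w := (P.one_le w hw).trans (P.n_le w hw)

theorem valv_ν {w : FPlace F} (hw : w ∈ S) :
    valv w (algebraMap F (w.adicCompletion F) P.ν) = WithZero.exp (P.s w : ℤ) := by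
  rw [valv_algebraMap, P.val w hw]

/-- The bound below which the scaled argument is in the kernel. -/
theorem ν_mul_le {w : FPlace F} (hw : w ∈ S) {j : ℕ} (hj : (P.s w : ℤ) - cond w ≤ j)
    {x : w.adicCompletion F} (hx : valv w x ≤ lev j) :
    valv w (algebraMap F (w.adicCompletion F) P.ν * x) ≤ WithZero.exp (cond w) := by
  rw [map_mul, P.valv_ν hw]
  refine (mul_le_mul' le_rfl hx).trans ?_
  rw [exp_mul_lev, WithZero.exp_le_exp]
  omega

/-- The character is multiplicative on its congruence subgroup. -/
theorem charFn_mul {w : FPlace F} (hw : w ∈ S) {g h : GLv w}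
    (hg : g ∈ congSubgroup w (P.n w)) (hh : h ∈ congSubgroup w (P.n w)) :
    charFn w P.ν (g * h) = charFn w P.ν g * charFn w P.ν h := by
  rw [charFn, charFn, charFn, ← psiAt_add, ← mul_add]
  refine psiAt_congr w ?_
  rw [← mul_sub]
  refine P.ν_mul_le hw ?_ (v_qEntry_mul_sub_le (P.one_le w hw) hg hh)
  have := P.s_le w hw; have := cond_nonneg w
  push_cast
  omega

/-- The character is trivial at depth `E`. -/
theorem charFn_eq_one {w : FPlace F} (hw : w ∈ S) {g : GLv w}
    (hg : g ∈ congSubgroup w (P.E w)) : charFn w P.ν g = 1 := by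
  have h1 : 1 ≤ P.E w := (P.one_le_m hw).trans (P.m_le_E w hw)
  refine psiAt_eq_one w (P.ν_mul_le hw ?_ ((mem_congZ_iff_qEntry h1).1 hg).2.2.1)
  have := P.s_le_E w hw; have := cond_nonneg w
  omega

/-- The characters are permuted by the automorphism, which fixes `ν`. -/
theorem charFn_equivariant (w : FPlace F) (g : GLv (comapPlace f w)) :
    charFn w P.ν (localAutGL f w g) = charFn (comapPlace f w) P.ν g := by
  rw [charFn, charFn, ← psiAt_localAut, map_mul, Orbital.localAut_coe, P.fix]
  congr 2
  show localAut f w _ / localAut f w _ = localAut f w (_ / _)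
  rw [map_div₀]

end CharParams

theorem level_ext {U U' : Level F} (h : ∀ w, U.J w = U'.J w) : U = U' := by
  obtain ⟨J, _, _, _⟩ := U
  obtain ⟨J', _, _, _⟩ := U'
  obtain rfl : J = J' := funext h
  rfl

namespace CharParams

/-- The group where the test function is supported. -/
def supp : Subgroup (placeSubgroup S) := levelAt (levelOn S P.m) S

/-- The product character. -/
def charS (z : placeSubgroup S) : ℂ := ∏ w ∈ S, charFn w P.ν (((z : Gf F) : ∀ v, GLv v) w)

/-- The product character is multiplicative on `supp`. -/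
theorem charS_mul {y z : placeSubgroup S} (hy : y ∈ P.supp) (hz : z ∈ P.supp) :
    P.charS (y * z) = P.charS y * P.charS z := by
  rw [charS, charS, charS, ← Finset.prod_mul_distrib]
  refine Finset.prod_congr rfl fun w hw => ?_
  exact P.charFn_mul hw (congSubgroup_antitone w (P.n_le w hw) (mem_levelAt_levelOn.1 hy w hw))
    (congSubgroup_antitone w (P.n_le w hw) (mem_levelAt_levelOn.1 hz w hw))

theorem charS_one : P.charS 1 = 1 := Finset.prod_eq_one fun w _ => charFn_one w P.ν

theorem charS_ne_zero {z : placeSubgroup S} (hz : z ∈ P.supp) : P.charS z ≠ 0 := fun h => by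
  have := P.charS_mul hz (inv_mem hz)
  rw [mul_inv_cancel, charS_one, h, zero_mul] at this
  exact one_ne_zero this

open Classical in
/-- The test function on `placeSubgroup S`. -/
def testFn (z : placeSubgroup S) : ℂ := if z ∈ P.supp then P.charS z else 0

theorem testFn_of_mem {z : placeSubgroup S} (hz : z ∈ P.supp) : P.testFn z = P.charS z := by
  classical exact if_pos hz

/-- The test function transforms by the product character under `supp`. -/
theorem testFn_mul_left {y : placeSubgroup S} (hy : y ∈ P.supp) (z : placeSubgroup S) :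
    P.testFn (y * z) = P.charS y * P.testFn z := by
  classical
  simp only [testFn]
  by_cases hz : z ∈ P.supp
  · rw [if_pos hz, if_pos (mul_mem hy hz), P.charS_mul hy hz]
  · rw [if_neg hz, if_neg fun h => hz ((Subgroup.mul_mem_cancel_left _ hy).1 h), mul_zero]

end CharParams

end Fermat.Agent.WeightOneLift
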